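import Fermat.Agent.Tau.FieldClassEquality
import Fermat.Agent.Root.SummaryAbelianFunctionalEquation
import Mathlib.NumberTheory.NumberField.Units.DirichletTheorem

/-!
# An imaginary quadratic field and its character

`K ∋ √d`, `d < 0` squarefree, of degree two: `|discr K| = |D|`, all units are roots of unity, and
`ζ_K = ζ L (·, χ)` for an odd real primitive character modulo `|D|`.
-/

set_option autoImplicit false
set_option linter.style.haveILetI false

noncomputable section

open NumberField InfinitePlace Module DirichletCharacter Matrix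
open FA.FieldClassBound

namespace FA.ChowlaSelberg

variable {K : Type*} [Field K] [NumberField K] {d : ℤ} {s : K}

theorem omega_im_ne_zero (hd0 : d < 0) : (FA.CMFields.omega (discK d)).im ≠ 0 := by
  have h : (0 : ℝ) < -((discK d : ℤ) : ℝ) := by
    have := Int.cast_lt_zero (R := ℝ) |>.2 (discK_neg hd0)
    linarith
  simpa [FA.CMFields.omega] using (Real.sqrt_pos.2 h).ne'

/-- An integral basis `1, w`. -/
theorem exists_basis (hK : finrank ℚ K = 2) (hd : Squarefree d) (hd0 : d < 0)
    (hs : s ^ 2 = (d : K)) {e : K →+* ℂ} (he : e s = Complex.I * (Real.sqrt (-(d : ℝ)) : ℂ)) :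
    ∃ b : Basis (Fin 2) ℤ (𝓞 K), b 0 = 1 ∧ e (b 1 : K) = FA.CMFields.omega (discK d) := by
  obtain ⟨w, hw⟩ := exists_omega hs he
  have hli : LinearIndependent ℤ ![(1 : 𝓞 K), w] := by
    rw [LinearIndependent.pair_iff]
    intro x y hxy
    have h := congrArg (fun r : 𝓞 K => e (r : K)) hxy
    simp only [zsmul_eq_mul, mul_one, map_add, map_mul, map_intCast, map_zero, hw] at h
    have hy : y = 0 := by
      have := congrArg Complex.im h
      simpa [omega_im_ne_zero hd0] using this
    subst hy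
    simpa using h
  refine ⟨Basis.mk hli fun r _ => ?_, by simp, by simpa using hw⟩
  obtain ⟨x, y, hxy⟩ := exists_omega_coord hK hd hd0 hs he r
  rw [show r = x • (1 : 𝓞 K) + y • w from RingOfIntegers.coe_injective (e.injective (by
    simp [zsmul_eq_mul, hxy, hw]))]
  exact add_mem (Submodule.smul_mem _ _ (Submodule.subset_span ⟨0, rfl⟩))
    (Submodule.smul_mem _ _ (Submodule.subset_span ⟨1, rfl⟩))

/-- **The discriminant of `ℚ(√d)`.** -/
theorem discr_eq_discK (hK : finrank ℚ K = 2) (hd : Squarefree d) (hd0 : d < 0)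
    (hs : s ^ 2 = (d : K)) : discr K = discK d := by
  obtain ⟨e, he⟩ := exists_emb hd0 hs
  obtain ⟨b, hb0, hb1⟩ := exists_basis hK hd hd0 hs he
  set D := discK d
  obtain ⟨Q, hQ⟩ : (4 : ℤ) ∣ D * D - D := by
    rw [Int.dvd_iff_emod_eq_zero, Int.sub_emod, Int.mul_emod]
    rcases discK_mod_four d with h | h <;> simp [D, h]
  have hsq : b 1 * b 1 = D • b 1 - Q • b 0 := RingOfIntegers.coe_injective (e.injective (by
    simp only [zsmul_eq_mul, hb0, map_mul, map_sub, map_intCast, hb1, mul_one]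
    rw [FA.CMFields.omega]
    have h0 : (0 : ℝ) ≤ -(D : ℝ) := by
      have := Int.cast_lt_zero (R := ℝ) |>.2 (discK_neg hd0)
      linarith
    have hr : ((Real.sqrt (-(D : ℝ)) : ℂ)) ^ 2 = -(D : ℂ) := by
      rw [← Complex.ofReal_pow, Real.sq_sqrt h0]; push_cast; rfl
    have hQ' : (D : ℂ) * D - D = 4 * Q := by exact_mod_cast hQ
    linear_combination (Real.sqrt (-(D : ℝ)) : ℂ) ^ 2 / 4 * Complex.I_sq - hr / 4 - hQ' / 4))
  have e00 : b.repr (b 0) = Finsupp.single 0 1 := b.repr_self 0
  have e11 : b.repr (b 1) = Finsupp.single 1 1 := b.repr_self 1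
  have t0 : Algebra.trace ℤ (𝓞 K) (b 0) = 2 := by
    rw [Algebra.trace_eq_matrix_trace b, Matrix.trace_fin_two,
      Algebra.leftMulMatrix_eq_repr_mul, Algebra.leftMulMatrix_eq_repr_mul, hb0, one_mul, one_mul,
      ← hb0, e00, e11]
    simp
  have t1 : Algebra.trace ℤ (𝓞 K) (b 1) = D := by
    rw [Algebra.trace_eq_matrix_trace b, Matrix.trace_fin_two,
      Algebra.leftMulMatrix_eq_repr_mul, Algebra.leftMulMatrix_eq_repr_mul]
    rw [show b 1 * b 0 = b 1 by rw [hb0, mul_one], e11, hsq, map_sub, map_zsmul, map_zsmul, e11,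
      e00]
    simp
  have t2 : Algebra.trace ℤ (𝓞 K) (b 1 * b 1) = D * D - 2 * Q := by
    rw [hsq, map_sub, map_zsmul, map_zsmul, t0, t1, smul_eq_mul, smul_eq_mul]
    ring
  rw [← discr_eq_discr K b, Algebra.discr_def, Matrix.det_fin_two]
  simp only [Algebra.traceMatrix_apply, Algebra.traceForm_apply, hb0, one_mul, mul_one]
  rw [← hb0, t0, t1, t2]
  linear_combination hQ

omit [NumberField K] in
theorem isTotallyComplex_of_sq (hd0 : d < 0) (hs : s ^ 2 = (d : K)) : IsTotallyComplex K :=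
  ⟨fun v => isComplex_iff.2 fun h => by
    have h1 : starRingEnd ℂ (v.embedding s) = v.embedding s := RingHom.congr_fun h s
    have h2 := congrArg v.embedding hs
    rw [map_pow, map_intCast, ← Complex.conj_eq_iff_re.1 h1, ← Complex.ofReal_pow,
      ← Complex.ofReal_intCast, Complex.ofReal_inj] at h2
    have := sq_nonneg (v.embedding s).re
    have := Int.cast_lt_zero (R := ℝ) |>.2 hd0
    linarith⟩

theorem card_infinitePlace (hK : finrank ℚ K = 2) (hd0 : d < 0) (hs : s ^ 2 = (d : K)) :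
    nrRealPlaces K = 0 ∧ nrComplexPlaces K = 1 ∧ Fintype.card (InfinitePlace K) = 1 := by
  have := isTotallyComplex_of_sq hd0 hs
  have h0 := IsTotallyComplex.nrRealPlaces_eq_zero K
  have h2 := card_add_two_mul_card_eq_rank K
  rw [hK, h0] at h2
  have h1 : nrComplexPlaces K = 1 := by omega
  exact ⟨h0, h1, by rw [card_eq_nrRealPlaces_add_nrComplexPlaces, h0, h1]⟩

/-- **All units are roots of unity.** -/
theorem card_units (hK : finrank ℚ K = 2) (hd0 : d < 0) (hs : s ^ 2 = (d : K)) :
    Nat.card (𝓞 K)ˣ = Units.torsionOrder K := by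
  have htop : Units.torsion K = ⊤ := by
    haveI : IsEmpty (Fin (Units.rank K)) := by
      rw [Units.rank, (card_infinitePlace hK hd0 hs).2.2]
      exact Fin.isEmpty
    simpa [Set.range_eq_empty] using Units.closure_fundSystem_sup_torsion_eq_top K
  rw [Units.torsionOrder, htop]
  exact (Nat.card_congr (Equiv.subtypeUnivEquiv fun _ => Subgroup.mem_top _)).symm

/-- **The zeta function of an imaginary quadratic field.** -/
theorem exists_fieldChar (hK : finrank ℚ K = 2) (hd0 : d < 0) (hs : s ^ 2 = (d : K)) :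
    ∃ χ : DirichletCharacter ℂ (discr K).natAbs, χ.IsPrimitive ∧ χ ^ 2 = 1 ∧ χ.Odd ∧
      ∀ z : ℂ, 1 < z.re → dedekindZeta K z = riemannZeta z *
        haveI : NeZero (discr K).natAbs := ⟨Int.natAbs_ne_zero.mpr (discr_ne_zero K)⟩
        LFunction χ z := by
  haveI : Algebra.IsQuadraticExtension ℚ K := ⟨hK⟩
  haveI : IsGalois ℚ K := ⟨⟩
  haveI : IsMulCommutative Gal(K/ℚ) := by
    have hc : Nat.card Gal(K/ℚ) = 2 := by rw [IsGalois.card_aut_eq_finrank, hK]
    haveI : Fact (Nat.Prime 2) := ⟨Nat.prime_two⟩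
    haveI := isCyclic_of_prime_card hc
    exact ⟨⟨fun a b => (IsCyclic.commGroup (α := Gal(K/ℚ))).mul_comm a b⟩⟩
  haveI : IsAbelianGalois ℚ K := ⟨⟩
  obtain ⟨n, hn, ⟨f⟩⟩ := FA.Summary.kroneckerWeber_cyclotomicField K
  haveI : NeZero n := ⟨hn.ne'⟩
  haveI : NeZero (n : ℚ) := ⟨Nat.cast_ne_zero.mpr hn.ne'⟩
  haveI : IsCyclotomicExtension {n} ℚ (CyclotomicField n ℚ) :=
    CyclotomicField.isCyclotomicExtension n ℚ
  haveI : IsAbelianGalois ℚ (CyclotomicField n ℚ) :=
    IsCyclotomicExtension.isAbelianGalois {n} ℚ (CyclotomicField n ℚ)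
  classical
  let E : IntermediateField ℚ (CyclotomicField n ℚ) := f.fieldRange
  let f' : K ≃ₐ[ℚ] E := AlgEquiv.ofInjectiveField f
  set X := Finset.univ.filter fun χ => χ ∈ FA.AbelianZeta.fieldChars n (CyclotomicField n ℚ) E
    with hX
  have hmem : ∀ {χ}, χ ∈ X ↔ χ ∈ FA.AbelianZeta.fieldChars n (CyclotomicField n ℚ) E := by
    simp [hX]
  have hcard : X.card = 2 := by
    rw [hX, FA.AbelianFE.card_fieldChars, ← f'.toLinearEquiv.finrank_eq, hK]
  have heven : (X.filter fun χ => χ.Even).card = 1 := by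
    rw [hX, Finset.filter_filter, FA.AbelianFE.card_even_eq,
      ← FA.AbelianFE.nrRealPlaces_congr f'.toRingEquiv,
      ← FA.AbelianFE.nrComplexPlaces_congr f'.toRingEquiv, (card_infinitePlace hK hd0 hs).1,
      (card_infinitePlace hK hd0 hs).2.1]
  have h1 : (1 : DirichletCharacter ℂ n) ∈ X := hmem.2 (Subgroup.one_mem _)
  obtain ⟨ψ, hψ⟩ := Finset.card_eq_one.1
    (show (X.erase 1).card = 1 by rw [Finset.card_erase_of_mem h1, hcard])
  have hψX : ψ ∈ X.erase 1 := hψ ▸ Finset.mem_singleton_self ψ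
  obtain ⟨hψ1, hψmem⟩ := Finset.mem_erase.1 hψX
  have hXeq : X = {1, ψ} := by rw [← Finset.insert_erase h1, hψ]
  have hodd : ψ.Odd := by
    refine ψ.even_or_odd.resolve_left fun hev => ?_
    have he1 : (1 : DirichletCharacter ℂ n).Even := MulChar.one_apply isUnit_one.neg
    rw [Finset.filter_true_of_mem (fun x hx => by
      rw [hXeq, Finset.mem_insert, Finset.mem_singleton] at hx
      rcases hx with rfl | rfl
      exacts [he1, hev]), hcard] at heven
    omega
  have hsq : ψ ^ 2 = 1 := by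
    have h2 : ψ ^ 2 ∈ X := hmem.2 (Subgroup.pow_mem _ (hmem.1 hψmem) 2)
    rw [hXeq, Finset.mem_insert, Finset.mem_singleton] at h2
    rcases h2 with h2 | h2
    · exact h2
    · exact absurd (by rwa [pow_two, mul_eq_left] at h2) hψ1
  haveI : NeZero ψ.conductor := ⟨ψ.conductor_ne_zero⟩
  have hcond : ψ.conductor = (discr K).natAbs := by
    rw [discr_eq_discr_of_algEquiv _ f',
      FA.Summary.conductor_discriminant n (CyclotomicField n ℚ) E]
    rw [show (FA.AbelianZeta.fieldChars n (CyclotomicField n ℚ) E :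
        Set (DirichletCharacter ℂ n)).toFinite.toFinset = X by
          ext χ; exact (Set.Finite.mem_toFinset _).trans hmem.symm, hXeq,
      Finset.prod_pair hψ1.symm, conductor_one, one_mul]
  have hzeta : ∀ z : ℂ, 1 < z.re →
      dedekindZeta K z = riemannZeta z * LFunction ψ.primitiveCharacter z := fun z hz => by
    let _ : Fintype (FA.AbelianZeta.fieldChars n (CyclotomicField n ℚ) E) := Fintype.ofFinite _
    rw [FA.AbelianZeta.dedekindZeta_congr f'.toRingEquiv,
      FA.AbelianZeta.dedekindZeta_eq_prod n (CyclotomicField n ℚ) E hz,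
      Finset.prod_bij (t := X) (g := fun χ => LFunction χ.primitiveCharacter z) (fun χ _ => χ.1)
        (fun χ _ => hmem.2 χ.2) (fun _ _ _ _ h => Subtype.ext h)
        (fun χ hχ => ⟨⟨χ, hmem.1 hχ⟩, Finset.mem_univ _, rfl⟩) fun _ _ => rfl,
      hXeq, Finset.prod_pair hψ1.symm, FA.AbelianZeta.LFunction_eq_riemannZeta _ conductor_one]
  have hp2 : ψ.primitiveCharacter ^ 2 = 1 := by
    refine changeLevel_injective ψ.conductor_dvd_level ?_
    rw [map_pow, changeLevel_primitiveCharacter, hsq, map_one]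
  have hpo : ψ.primitiveCharacter.Odd := by
    show ψ.primitiveCharacter (-1) = -1
    rw [FA.AbelianFE.primitiveCharacter_neg_one]
    exact hodd
  suffices H : ∀ (D : ℕ) [NeZero D], ψ.conductor = D → ∃ χ : DirichletCharacter ℂ D,
      χ.IsPrimitive ∧ χ ^ 2 = 1 ∧ χ.Odd ∧
        ∀ z : ℂ, 1 < z.re → dedekindZeta K z = riemannZeta z * LFunction χ z from
    @H _ ⟨Int.natAbs_ne_zero.mpr (discr_ne_zero K)⟩ hcond
  intro D _ hD
  subst hD
  exact ⟨ψ.primitiveCharacter, ψ.primitiveCharacter_isPrimitive, hp2, hpo, hzeta⟩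

end FA.ChowlaSelberg

end
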