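import Fermat.Agent.ChowlaSelberg.Field
import Fermat.Agent.Twists.KroneckerChar

/-!
# An imaginary quadratic field is `ℚ(√d)`
-/

set_option autoImplicit false

noncomputable section

open NumberField InfinitePlace Module

namespace FA.ChowlaSelberg

/-- `K = ℚ(√d)` with `d < 0` squarefree. -/
theorem exists_sq_eq_intCast_neg (K : Type*) [Field K] [NumberField K] [IsTotallyComplex K]
    (hK : finrank ℚ K = 2) :
    ∃ d : ℤ, Squarefree d ∧ d < 0 ∧ ∃ s : K, s ^ 2 = (d : K) := by
  obtain ⟨α, hα⟩ : ∃ α : K, α ∉ (algebraMap ℚ K).range := by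
    by_contra h
    push Not at h
    have := finrank_le_one (R := ℚ) (v := (1 : K)) fun x => by
      obtain ⟨r, hr⟩ := h x
      exact ⟨r, by rw [← hr, Algebra.smul_def, mul_one]⟩
    omega
  have hli : LinearIndependent ℚ ![(1 : K), α] := by
    rw [LinearIndependent.pair_iff' one_ne_zero]
    intro a ha
    exact hα ⟨a, by rw [← ha, Algebra.smul_def, mul_one]⟩
  let B := basisOfLinearIndependentOfCardEqFinrank hli (by simp [hK])
  have hco : ∀ x : K, ∃ a b : ℚ, x = a + b * α := fun x => ⟨B.repr x 0, B.repr x 1, by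
    conv_lhs => rw [← B.sum_repr x]
    simp [B, Fin.sum_univ_two, Algebra.smul_def]⟩
  obtain ⟨a, b, hab⟩ := hco (α * α)
  have hr : (2 * α - b) ^ 2 = ((4 * a + b ^ 2 : ℚ) : K) := by
    push_cast
    linear_combination (4 : K) * hab
  have hr0 : 4 * a + b ^ 2 ≠ 0 := fun h => hα ⟨b / 2, by
    rw [h, Rat.cast_zero, sq_eq_zero_iff, sub_eq_zero] at hr
    simp only [map_div₀, map_ofNat, eq_ratCast]
    rw [← hr]; ring⟩
  obtain ⟨D, t, hD, ht, hDt⟩ := FA.Twists.exists_squarefree_mul_sq hr0
  have htK : (t : K) ≠ 0 := Rat.cast_ne_zero.2 ht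
  have hs : ((2 * α - b) / t) ^ 2 = (D : K) := by
    rw [div_pow, hr, hDt]; push_cast; field_simp
  refine ⟨D, hD, lt_of_le_of_ne (not_lt.1 fun hpos => ?_) hD.ne_zero, _, hs⟩
  obtain ⟨v⟩ : Nonempty (InfinitePlace K) := inferInstance
  have hc := IsTotallyComplex.isComplex (K := K) v
  rw [isComplex_iff] at hc
  refine hc (RingHom.ext fun x => ?_)
  have hsr : starRingEnd ℂ (v.embedding ((2 * α - b) / t)) = v.embedding ((2 * α - b) / t) := by
    have h2 := congrArg v.embedding hs
    rw [map_pow, map_intCast] at h2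
    set z := v.embedding ((2 * α - b) / t)
    rw [Complex.conj_eq_iff_im]
    by_contra him
    have hre : z.re = 0 := by
      have := congrArg Complex.im h2
      simp [pow_two] at this
      exact (mul_eq_zero.1 (by linarith : z.re * z.im = 0)).resolve_right him
    have := congrArg Complex.re h2
    simp [pow_two, hre] at this
    have hp : (0 : ℝ) < D := Int.cast_pos.2 hpos
    nlinarith [mul_self_nonneg z.im]
  obtain ⟨p, q, rfl⟩ := hco x
  have hα' : α = ((2 * α - b) / t * t + b) / 2 := by field_simp; ring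
  show starRingEnd ℂ (v.embedding _) = v.embedding _
  rw [hα']
  simp only [map_add, map_mul, map_div₀ _ (_ + _), map_ratCast, map_ofNat, hsr]

end FA.ChowlaSelberg

end
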