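import Fermat.Agent.ChowlaSelberg.Main
import Fermat.Agent.Root.SummaryPrimeIdealTheorem

/-!
# The values at one of the class zeta functions and of class group L-functions

The limit formula at the reduced form of a class gives the constant term of the zeta function of
the inverse class; for a nontrivial character the L-function at one is then a combination of
`log (√y |η|²)`, and its nonvanishing gives the full rank of these logarithms.
-/

set_option autoImplicit false
set_option linter.style.haveILetI false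

noncomputable section

open NumberField Module Filter Topology UpperHalfPlane
open FA.FieldClassBound FA.KroneckerLimit
open scoped nonZeroDivisors Real

namespace FA.ChowlaSelberg

/-- The constant term of `E (τ, z) / (w c ^ z)` at `z = 1`. -/
theorem limit_scaled (τ : ℍ) {w c : ℝ} (hw : w ≠ 0) (hc : 0 < c) :
    Tendsto (fun z : ℝ => epstein τ z / (w * c ^ z) - π / (w * c) / (z - 1)) (𝓝[>] 1)
      (𝓝 ((2 * π * (Real.eulerMascheroniConstant - Real.log 2 - Real.log (height τ)) -
        π * Real.log c) / (w * c))) := by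
  have hder : HasDerivAt (fun z : ℝ => (w * c ^ z)⁻¹) (-Real.log c / (w * c)) 1 := by
    have h := (((hasDerivAt_id (1 : ℝ)).const_rpow hc).const_mul w).inv (by
      simp [hw, hc.ne'])
    refine HasDerivAt.congr_deriv h ?_
    simp only [id_eq, Real.rpow_one, mul_one]
    field_simp
  have hsl : Tendsto (fun z : ℝ => ((w * c ^ z)⁻¹ - (w * c)⁻¹) / (z - 1)) (𝓝[>] 1)
      (𝓝 (-Real.log c / (w * c))) := by
    refine ((hasDerivAt_iff_tendsto_slope.1 hder).mono_left
      (nhdsWithin_mono _ fun z hz => ne_of_gt hz)).congr fun z => ?_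
    rw [slope_def_field, Real.rpow_one]
  have hcz : Tendsto (fun z : ℝ => (w * c ^ z)⁻¹) (𝓝[>] 1) (𝓝 (w * c)⁻¹) := by
    simpa using hder.continuousAt.tendsto.mono_left nhdsWithin_le_nhds
  have h := ((tendsto_epstein_sub τ).mul hcz).add (hsl.const_mul π)
  rw [show √τ.im * ‖ModularForm.eta τ‖ ^ 2 = height τ from rfl] at h
  convert h.congr' ?_ using 2
  · field_simp
    ring
  · filter_upwards [self_mem_nhdsWithin] with z hz
    have : z - 1 ≠ 0 := sub_ne_zero.2 (ne_of_gt hz)
    have : c ^ z ≠ 0 := (Real.rpow_pos_of_pos hc z).ne'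
    field_simp
    ring

variable {K : Type*} [Field K] [NumberField K] {d : ℤ} {s : K} {e : K →+* ℂ}
  {f : ℤ × ℤ × ℤ} {τ : ℍ} {α : 𝓞 K}

/-- **The zeta function of one class at `s = 1`.** -/
theorem classZeta_at_one (hK : finrank ℚ K = 2) (hd : Squarefree d) (hd0 : d < 0)
    (hs : s ^ 2 = (d : K)) (he : e s = Complex.I * (Real.sqrt (-(d : ℝ)) : ℂ))
    (hf : f ∈ FA.Singular.Red (discK d)) (hg : IsGen e f τ α) {C : ClassGroup (𝓞 K)}
    (hC : (formClass f hf.2.2.1 α)⁻¹ = C) :
    ∃ F : ℂ → ℂ, Differentiable ℂ F ∧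
      (∀ z : ℂ, 1 < z.re →
        ∑' I : {I : (Ideal (𝓞 K))⁰ // ClassGroup.mk0 I = C},
            ((Ideal.absNorm I.1.1 : ℕ) : ℂ) ^ (-z) =
          ((2 * π / (Units.torsionOrder K * √((discr K).natAbs : ℝ)) : ℝ) : ℂ) / (z - 1) + F z) ∧
      F 1 = ((4 * π / (Units.torsionOrder K * √((discr K).natAbs : ℝ)) *
          (Real.eulerMascheroniConstant - Real.log 2 - Real.log (height τ)) -
        2 * π / (Units.torsionOrder K * √((discr K).natAbs : ℝ)) *
          Real.log (√((discr K).natAbs : ℝ) / 2) : ℝ) : ℂ) := by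
  obtain ⟨F, hF, hF'⟩ := FA.Summary.classZeta_continuation K C
  set κ : ℝ := dedekindZeta_residue K / classNumber K
  set w : ℝ := (Units.torsionOrder K : ℝ)
  set N : ℝ := ((discr K).natAbs : ℝ) with hNdef
  have hND : -(discK d : ℝ) = N := by
    rw [hNdef, discr_eq_discK hK hd hd0 hs, Nat.cast_natAbs, Int.cast_abs, abs_of_neg]
    exact Int.cast_lt_zero.2 (discK_neg hd0)
  have hN : 0 < √N := Real.sqrt_pos.2 (by
    rw [← hND, neg_pos]
    exact Int.cast_lt_zero.2 (discK_neg hd0))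
  have hw : w ≠ 0 := Nat.cast_ne_zero.2 (Units.torsionOrder_ne_zero K)
  set c : ℝ := √N / 2
  have hc : 0 < c := half_pos hN
  have hlim := limit_scaled τ hw hc
  have hsum : ∀ z : ℝ, 1 < z → z ≤ 2 →
      ((epstein τ z / (w * c ^ z) : ℝ) : ℂ) = (κ : ℂ) / ((z : ℂ) - 1) + F z := fun z hz hz2 => by
    have h := hasSum_class hK hd hd0 hs he hf hg hz hz2
    rw [hND] at h
    have h2 := ((Equiv.subtypeEquivRight (p := fun I : (Ideal (𝓞 K))⁰ => ClassGroup.mk0 I = C)
      (q := fun I => (ClassGroup.mk0 I)⁻¹ = formClass f hf.2.2.1 α) fun I => by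
        rw [← hC, eq_inv_iff_mul_eq_one, inv_eq_iff_mul_eq_one]).hasSum_iff.2 h).mapL
          Complex.ofRealCLM
    simp only [Complex.ofRealCLM_apply, Function.comp_apply] at h2
    rw [← hF' z (by simpa using hz), ← h2.tsum_eq]
    refine tsum_congr fun I => ?_
    rw [Complex.ofReal_cpow (Nat.cast_nonneg _), Complex.ofReal_natCast, Complex.ofReal_neg]
    rfl
  set A : ℝ := π / (w * c)
  set V : ℝ := (2 * π * (Real.eulerMascheroniConstant - Real.log 2 - Real.log (height τ)) -
    π * Real.log c) / (w * c)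
  have hFc : Tendsto (fun z : ℝ => F z) (𝓝[>] 1) (𝓝 (F 1)) := by
    simpa [Function.comp_def] using ((hF.continuous.comp Complex.continuous_ofReal).tendsto 1
      ).mono_left nhdsWithin_le_nhds
  have hd2 : Tendsto (fun z : ℝ => ((κ : ℂ) - A) / ((z : ℂ) - 1)) (𝓝[>] 1)
      (𝓝 ((V : ℂ) - F 1)) := by
    refine (((Complex.continuous_ofReal.tendsto _).comp hlim).sub hFc).congr' ?_
    filter_upwards [Ioo_mem_nhdsGT (show (1 : ℝ) < 2 by norm_num)] with z hz
    simp only [Function.comp_apply, Complex.ofReal_sub, hsum z hz.1 hz.2.le]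
    push_cast
    ring
  have hid : Tendsto (fun z : ℝ => (z : ℂ) - 1) (𝓝[>] 1) (𝓝 0) :=
    (Complex.continuous_ofReal.sub continuous_const).tendsto' 1 _ (by simp)
      |>.mono_left nhdsWithin_le_nhds
  have hne : ∀ᶠ z : ℝ in 𝓝[>] 1, (z : ℂ) - 1 ≠ 0 := by
    filter_upwards [self_mem_nhdsWithin] with z hz
    simpa [sub_eq_zero] using (ne_of_gt (show (1 : ℝ) < z from hz))
  have h1 : (κ : ℂ) - A = 0 := by
    refine tendsto_nhds_unique (l := 𝓝[>] (1 : ℝ)) tendsto_const_nhds ?_
    have := hd2.mul hid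
    rw [mul_zero] at this
    exact this.congr' (hne.mono fun z hz => by rw [div_mul_cancel₀ _ hz])
  simp only [h1, zero_div] at hd2
  have h2 := sub_eq_zero.1 (tendsto_nhds_unique tendsto_const_nhds hd2).symm
  have hA : A = 2 * π / (w * √N) := by simp only [A, c]; field_simp
  refine ⟨F, hF, fun z hz => ?_, ?_⟩
  · rw [hF' z hz, show κ = A from Complex.ofReal_injective (sub_eq_zero.1 h1), hA]
  · rw [← h2, Complex.ofReal_inj]
    simp only [V, c]
    field_simp
    ring

theorem char_sum_eq_zero {G : Type*} [CommGroup G] [Fintype G] {g : G} (hg : g ≠ 1)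
    [Fintype (G →* ℂˣ)] : ∑ φ : G →* ℂˣ, (φ g : ℂ) = 0 := by
  obtain ⟨φ₀, hφ₀⟩ := CommGroup.exists_apply_ne_one_of_hasEnoughRootsOfUnity G ℂ hg
  refine sum_hom_units_eq_zero
    { toFun := fun φ : G →* ℂˣ => (φ g : ℂ), map_one' := rfl, map_mul' := fun _ _ => rfl }
    fun h => hφ₀ (Units.ext ?_)
  exact DFunLike.congr_fun h φ₀

/-- **Frobenius.** If no nontrivial character annihilates `l`, the matrix `l (AB) - l A` on the
nontrivial elements is nonsingular. -/
theorem det_ne_zero_of_char_sum {G : Type*} [CommGroup G] [Fintype G] [DecidableEq G] (l : G → ℝ)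
    (h : ∀ φ : G →* ℂˣ, φ ≠ 1 → ∑ A, (φ A : ℂ) * (l A : ℂ) ≠ 0) :
    (Matrix.of fun A B : {A : G // A ≠ 1} => l (A.1 * B.1) - l A.1).det ≠ 0 := by
  intro hdet
  obtain ⟨v, hv0, hv⟩ := Matrix.exists_mulVec_eq_zero_iff.2 hdet
  classical
  set v' : G → ℝ := fun B => if hB : B ≠ 1 then v ⟨B, hB⟩
    else -∑ B : {A : G // A ≠ 1}, v B
  have hsplit : ∀ F : G → ℝ, ∑ B, F B = F 1 + ∑ B : {A : G // A ≠ 1}, F B.1 := fun F => by
    rw [← Finset.add_sum_erase _ _ (Finset.mem_univ (1 : G))]
    congr 1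
    exact Finset.sum_subtype (Finset.univ.erase (1 : G)) (by simp) F
  have hv'1 : v' 1 = -∑ B : {A : G // A ≠ 1}, v B := by simp [v']
  have hv'B : ∀ B : {A : G // A ≠ 1}, v' B.1 = v B := fun B => by simp [v', B.2]
  have hsum : ∑ B, v' B = 0 := by
    rw [hsplit, hv'1, Finset.sum_congr rfl fun B _ => hv'B B, neg_add_cancel]
  have hrow : ∀ A : {A : G // A ≠ 1}, ∑ B, v' B * l (A.1 * B) = 0 := fun A => by
    have e := congrFun hv A
    simp only [Matrix.mulVec, dotProduct, Matrix.of_apply, Pi.zero_apply] at e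
    rw [hsplit, hv'1, mul_one, neg_mul, Finset.sum_mul, ← Finset.sum_neg_distrib,
      ← Finset.sum_add_distrib]
    refine (Finset.sum_congr rfl fun B _ => ?_).trans e
    rw [hv'B]
    ring
  have hall : ∀ A : G, ∑ B, v' B * l (A * B) = 0 := by
    have ht : ∑ A : G, ∑ B, v' B * l (A * B) = 0 := by
      rw [Finset.sum_comm]
      have hr : ∀ B : G, ∑ A, v' B * l (A * B) = v' B * ∑ A, l A := fun B => by
        rw [Finset.mul_sum]
        exact Equiv.sum_comp (Equiv.mulRight B) fun A => v' B * l A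
      rw [Finset.sum_congr rfl fun B _ => hr B, ← Finset.sum_mul, hsum, zero_mul]
    intro A
    rcases eq_or_ne A 1 with rfl | hA
    · rwa [hsplit (fun A => ∑ B, v' B * l (A * B)),
        Finset.sum_eq_zero (s := Finset.univ) (fun A _ => hrow A), add_zero] at ht
    · exact hrow ⟨A, hA⟩
  have hhat : ∀ φ : G →* ℂˣ, ∑ B, (v' B : ℂ) * (φ B⁻¹ : ℂ) = 0 := fun φ => by
    rcases eq_or_ne φ 1 with rfl | hφ
    · simpa [← Complex.ofReal_sum] using hsum
    · refine (mul_eq_zero.1 (?_ : _ * ∑ A, (φ A : ℂ) * (l A : ℂ) = 0)).resolve_right (h φ hφ)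
      calc (∑ B, (v' B : ℂ) * (φ B⁻¹ : ℂ)) * ∑ A, (φ A : ℂ) * (l A : ℂ)
          = ∑ A, (φ A : ℂ) * ((∑ B, v' B * l (A * B) : ℝ) : ℂ) := by
            rw [Finset.sum_mul]
            simp only [Complex.ofReal_sum, Finset.mul_sum]
            rw [Finset.sum_comm (γ := G) (s := Finset.univ) (t := Finset.univ)
              (f := fun A B => (φ A : ℂ) * ((v' B * l (A * B) : ℝ) : ℂ))]
            refine Finset.sum_congr rfl fun B _ => ?_
            rw [← Equiv.sum_comp (Equiv.mulRight B) fun A =>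
              (v' B : ℂ) * (φ B⁻¹ : ℂ) * ((φ A : ℂ) * (l A : ℂ))]
            refine Finset.sum_congr rfl fun A _ => ?_
            rw [Equiv.coe_mulRight, map_mul, Units.val_mul, map_inv, Units.val_inv_eq_inv_val,
              Complex.ofReal_mul]
            have := (φ B).ne_zero
            field_simp
        _ = 0 := by simp [hall]
  refine hv0 (funext fun A => ?_)
  haveI : Finite (G →* ℂˣ) := Finite.of_equiv G
    (CommGroup.monoidHom_mulEquiv_of_hasEnoughRootsOfUnity G ℂ).some.toEquiv.symm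
  haveI : Fintype (G →* ℂˣ) := Fintype.ofFinite _
  have hinv : ((v' A.1 : ℝ) : ℂ) * Fintype.card (G →* ℂˣ) = 0 := by
    have e : ∑ φ : G →* ℂˣ, (φ A.1 : ℂ) * ∑ B, (v' B : ℂ) * (φ B⁻¹ : ℂ) = 0 :=
      Finset.sum_eq_zero fun φ _ => by rw [hhat, mul_zero]
    simp only [Finset.mul_sum] at e
    rw [Finset.sum_comm, Finset.sum_eq_single A.1] at e
    · rw [← e, ← Finset.card_univ, mul_comm, ← nsmul_eq_mul, ← Finset.sum_const]
      refine Finset.sum_congr rfl fun φ _ => ?_
      rw [map_inv, Units.val_inv_eq_inv_val]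
      have := (φ A.1).ne_zero
      field_simp
    · intro B _ hB
      have hne : A.1 * B⁻¹ ≠ 1 := fun h => hB (mul_inv_eq_one.1 h).symm
      rw [Finset.sum_congr rfl fun φ _ => show (φ A.1 : ℂ) * ((v' B : ℂ) * (φ B⁻¹ : ℂ)) =
          (v' B : ℂ) * (φ (A.1 * B⁻¹) : ℂ) by rw [map_mul, Units.val_mul]; ring,
        ← Finset.mul_sum, char_sum_eq_zero hne, mul_zero]
    · simp
  have hv'A : v' A.1 = 0 := by
    simpa [Fintype.card_ne_zero] using hinv
  rw [← hv'B, hv'A, Pi.zero_apply]

end FA.ChowlaSelberg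

end
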