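import Fermat.Agent.ChowlaSelberg.Field
import Fermat.Agent.KroneckerLimit.Limit

/-!
# The classes as Epstein zeta functions

For a reduced form with root `τ` the nonzero elements of its ideal `J` are the units times the
ideals `I` in the inverse class, so `E (τ, z) = w (√|D| / 2) ^ z ∑ N I ^ (-z)`; over all forms
this is `w (√|D| / 2) ^ z ζ_K z`.
-/

set_option autoImplicit false
set_option linter.style.haveILetI false

noncomputable section

open NumberField Module Ideal UpperHalfPlane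
open FA.FieldClassBound FA.KroneckerLimit
open scoped nonZeroDivisors

namespace FA.ChowlaSelberg

variable {K : Type*} [Field K] [NumberField K] {d : ℤ} {s : K} {e : K →+* ℂ}
  {f : ℤ × ℤ × ℤ} {τ : ℍ} {α : 𝓞 K}

/-- `|N r| = |e r|²`. -/
theorem natAbs_norm_eq (hK : finrank ℚ K = 2) (hd0 : d < 0) (hs : s ^ 2 = (d : K))
    (he : e s = Complex.I * (Real.sqrt (-(d : ℝ)) : ℂ)) (r : 𝓞 K) :
    ((Algebra.norm ℤ r).natAbs : ℝ) = Complex.normSq (e (r : K)) := by
  obtain ⟨u, v, huv⟩ := FA.ClassNumberOne.exists_coord hK hd0 hs (r : K)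
  obtain ⟨hN, -⟩ := FA.ExceptionalIsCM.norm_trace_int hK hd0 hs huv
  have hd' : (0 : ℝ) ≤ -(d : ℝ) := by
    have := Int.cast_lt_zero (R := ℝ) |>.2 hd0
    linarith
  have hN' : ((Algebra.norm ℤ r : ℤ) : ℝ) = (u : ℝ) ^ 2 - (d : ℝ) * (v : ℝ) ^ 2 := by
    exact_mod_cast congrArg (Rat.cast : ℚ → ℝ) hN.symm
  have he' : Complex.normSq (e (r : K)) = (u : ℝ) ^ 2 - (d : ℝ) * (v : ℝ) ^ 2 := by
    rw [huv, map_add, map_mul, map_ratCast, map_ratCast, he, Complex.normSq_apply]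
    simp
    linear_combination (v : ℝ) ^ 2 * Real.mul_self_sqrt hd'
  rw [Nat.cast_natAbs, Int.cast_abs, hN', he', abs_of_nonneg]
  nlinarith [sq_nonneg (u : ℝ), sq_nonneg (v : ℝ)]

/-- The element `n a + m α` of the ideal. -/
def latticeElt (f : ℤ × ℤ × ℤ) (α : 𝓞 K) (v : ℤ × ℤ) : 𝓞 K :=
  (v.2 : 𝓞 K) * (f.1 : 𝓞 K) + (v.1 : 𝓞 K) * α

theorem emb_latticeElt (hg : IsGen e f τ α) (v : ℤ × ℤ) :
    e (latticeElt f α v : K) = (f.1 : ℂ) * ((v.1 : ℂ) * τ + v.2) := by
  simp only [latticeElt, map_add, map_mul, map_intCast, hg.2]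
  ring

theorem latticeElt_eq_zero (hf : 0 < f.1) (hg : IsGen e f τ α) {v : ℤ × ℤ} :
    latticeElt f α v = 0 ↔ v = 0 := by
  refine ⟨fun h => ?_, fun h => by simp [h, latticeElt]⟩
  have := emb_latticeElt hg v
  rw [h] at this
  simp [hf.ne'] at this
  have him := congrArg Complex.im this
  simp [τ.im_pos.ne'] at him
  have h1 : v.1 = 0 := him
  rw [h1] at this
  exact Prod.ext h1 (by simpa using this)

theorem latticeElt_injective (hf : 0 < f.1) (hg : IsGen e f τ α) :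
    Function.Injective (latticeElt f α : ℤ × ℤ → 𝓞 K) := fun u v h => by
  have : latticeElt f α (u - v) = 0 := by
    simp only [latticeElt, Prod.fst_sub, Prod.snd_sub, Int.cast_sub] at h ⊢
    linear_combination h
  exact sub_eq_zero.1 ((latticeElt_eq_zero hf hg).1 this)

omit [NumberField K] in
theorem latticeElt_mem (f : ℤ × ℤ × ℤ) (α : 𝓞 K) (v : ℤ × ℤ) :
    latticeElt f α v ∈ formIdeal f α :=
  Ideal.mem_span_pair.2 ⟨_, _, rfl⟩

theorem exists_latticeElt (hK : finrank ℚ K = 2) (hd : Squarefree d) (hd0 : d < 0)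
    (hs : s ^ 2 = (d : K)) (he : e s = Complex.I * (Real.sqrt (-(d : ℝ)) : ℂ))
    (hf : f ∈ FA.Singular.Red (discK d)) (hg : IsGen e f τ α) {r : 𝓞 K} (hr : r ∈ formIdeal f α) :
    ∃ v, latticeElt f α v = r := by
  obtain ⟨l, hl, hl'⟩ := (mem_formIdeal_iff e hK hd hd0 hs he hf hg _).1 ⟨r, hr, rfl⟩
  obtain ⟨m, n, rfl⟩ := FA.Mazur.Wp.mem_latPair.1 hl
  exact ⟨(m, n), RingOfIntegers.coe_injective (e.injective (by rw [emb_latticeElt hg, ← hl']))⟩

/-- The norm of the ideal of a form is its leading coefficient. -/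
theorem absNorm_formIdeal (hK : finrank ℚ K = 2) (hd : Squarefree d) (hd0 : d < 0)
    (hs : s ^ 2 = (d : K)) (he : e s = Complex.I * (Real.sqrt (-(d : ℝ)) : ℂ))
    (hf : f ∈ FA.Singular.Red (discK d)) (hg : IsGen e f τ α) :
    (absNorm (formIdeal f α) : ℤ) = f.1 := by
  obtain ⟨a, b, c⟩ := f
  obtain ⟨m, hm⟩ := FA.CMFields.exists_smul_eq (D := discK d) hf.2.2.1 hf.1 hg.1
  obtain ⟨A, hA⟩ : ∃ A : ℕ, a = A := Int.eq_ofNat_of_zero_le hf.2.2.1.le
  subst hA
  have hA0 : 0 < A := by simpa using hf.2.2.1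
  set J := formIdeal ((A : ℤ), b, c) α
  have hbij : Function.Bijective
      fun i : Fin A => Ideal.Quotient.mk J (((i : ℕ) : ℤ) : 𝓞 K) := by
    constructor
    · intro i j hij
      rw [Ideal.Quotient.eq] at hij
      obtain ⟨v, hv⟩ := exists_latticeElt hK hd hd0 hs he hf hg hij
      have h := congrArg (fun r : 𝓞 K => e (r : K)) hv
      simp only [emb_latticeElt hg, map_sub, map_intCast] at h
      have him := congrArg Complex.im h
      simp [τ.im_pos.ne', hA0.ne'] at him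
      have h1 : v.1 = 0 := him
      rw [h1] at h
      simp only [Int.cast_zero, zero_mul, zero_add] at h
      have h' : (A : ℤ) * v.2 = (i : ℕ) - ((j : ℕ) : ℤ) := by exact_mod_cast h
      have hdvd : (A : ℤ) ∣ (i : ℕ) - ((j : ℕ) : ℤ) := ⟨v.2, h'.symm⟩
      have := Int.eq_zero_of_abs_lt_dvd hdvd (by
        rw [abs_lt]; constructor <;> omega)
      exact Fin.ext (by omega)
    · intro q
      obtain ⟨r, rfl⟩ := Ideal.Quotient.mk_surjective q
      obtain ⟨x, y, hxy⟩ := exists_omega_coord hK hd hd0 hs he r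
      have hr : r = ((x + y * m : ℤ) : 𝓞 K) + (y : 𝓞 K) * α :=
        RingOfIntegers.coe_injective (e.injective (by
          simp only [map_add, map_mul, map_intCast, hg.2, hxy]
          push_cast
          linear_combination -(y : ℂ) * hm))
      refine ⟨⟨((x + y * m) % A).toNat, ?_⟩, ?_⟩
      · have := Int.emod_lt_of_pos (x + y * m) (by omega : (0 : ℤ) < A)
        omega
      · rw [Ideal.Quotient.eq, hr]
        have hnn := Int.emod_nonneg (x + y * m) (by omega : (A : ℤ) ≠ 0)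
        rw [show (((⟨((x + y * m) % A).toNat, _⟩ : Fin A) : ℕ) : ℤ) = (x + y * m) % A from
          Int.toNat_of_nonneg hnn, Int.emod_def]
        convert latticeElt_mem ((A : ℤ), b, c) α (-y, -((x + y * m) / A)) using 1
        simp only [latticeElt]
        push_cast
        ring
  rw [Ideal.absNorm_apply, Submodule.cardQuot_apply]
  exact congrArg (Nat.cast : ℕ → ℤ)
    ((Nat.card_congr (Equiv.ofBijective _ hbij)).symm.trans (Nat.card_fin A))

omit [NumberField K] in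
theorem im_root (hf : f ∈ FA.Singular.Red (discK d)) (hg : IsGen e f τ α) :
    (f.1 : ℝ) * τ.im = Real.sqrt (-(discK d : ℝ)) / 2 := by
  obtain ⟨m, hm⟩ := FA.CMFields.exists_smul_eq (D := discK d) hf.2.2.1 hf.1 hg.1
  simpa [FA.CMFields.omega] using congrArg Complex.im hm

/-- The ideals in the class inverse to that of `J`. -/
def InvClass (C : ClassGroup (𝓞 K)) : Type _ :=
  {I : (Ideal (𝓞 K))⁰ // (ClassGroup.mk0 I)⁻¹ = C}

/-- Inverse classes multiply to a principal ideal. -/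
theorem exists_classGen (I J : (Ideal (𝓞 K))⁰)
    (h : (ClassGroup.mk0 I)⁻¹ = ClassGroup.mk0 J) :
    ∃ β : 𝓞 K, β ≠ 0 ∧ I.1 * J.1 = Ideal.span {β} := by
  have h1 : ClassGroup.mk0 (I * J) = 1 := by rw [map_mul, ← h, mul_inv_cancel]
  obtain ⟨β, hβ⟩ := ((ClassGroup.mk0_eq_one_iff (I * J).2).1 h1).principal
  refine ⟨β, fun h0 => ?_, hβ⟩
  refine mem_nonZeroDivisors_iff_ne_zero.1 (I * J).2 ?_
  have : (I * J).1 = Ideal.span {(0 : 𝓞 K)} := by rw [← h0]; exact hβ
  simpa [Ideal.span_singleton_eq_bot] using this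

/-- **One class.** -/
theorem hasSum_class (hK : finrank ℚ K = 2) (hd : Squarefree d) (hd0 : d < 0)
    (hs : s ^ 2 = (d : K)) (he : e s = Complex.I * (Real.sqrt (-(d : ℝ)) : ℂ))
    (hf : f ∈ FA.Singular.Red (discK d)) (hg : IsGen e f τ α) {z : ℝ} (hz : 1 < z) (hz2 : z ≤ 2) :
    HasSum (fun I : InvClass (formClass f hf.2.2.1 α) => ((absNorm I.1.1 : ℕ) : ℝ) ^ (-z))
      (epstein τ z / ((Units.torsionOrder K : ℝ) * (Real.sqrt (-(discK d : ℝ)) / 2) ^ z)) := by
  classical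
  set J := formIdeal f α with hJ
  have hJ0 : J ≠ 0 := fun h => mem_nonZeroDivisors_iff_ne_zero.1
    (formIdeal_mem_nonZeroDivisors hf.2.2.1 α) h
  set C := formClass f hf.2.2.1 α
  have hgen : ∀ I : InvClass C, ∃ β : 𝓞 K, β ≠ 0 ∧ I.1.1 * J = Ideal.span {β} := fun I =>
    exists_classGen I.1 ⟨J, formIdeal_mem_nonZeroDivisors hf.2.2.1 α⟩ I.2
  choose β hβ0 hβ using hgen
  have hβJ : ∀ (I : InvClass C) (u : (𝓞 K)ˣ), (u : 𝓞 K) * β I ∈ J := fun I u =>
    Ideal.mul_mem_left _ _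
      ((hβ I).symm.le.trans Ideal.mul_le_right (Ideal.mem_span_singleton_self _))
  choose vec hvec using fun p : InvClass C × (𝓞 K)ˣ =>
    exists_latticeElt hK hd hd0 hs he hf hg (hβJ p.1 p.2)
  have hv0 : ∀ p, vec p ≠ 0 := fun p h => by
    have := hvec p
    rw [(latticeElt_eq_zero hf.2.2.1 hg).2 h] at this
    exact mul_ne_zero p.2.ne_zero (hβ0 p.1) this.symm
  have hinj : Function.Injective vec := by
    rintro ⟨I, u⟩ ⟨I', u'⟩ h
    have h' : (u : 𝓞 K) * β I = (u' : 𝓞 K) * β I' :=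
      (hvec (I, u)).symm.trans ((congrArg (latticeElt f α) h).trans (hvec (I', u')))
    have hI : I.1.1 * J = I'.1.1 * J := by
      rw [hβ, hβ, ← Ideal.span_singleton_mul_left_unit u.isUnit, h',
        Ideal.span_singleton_mul_left_unit u'.isUnit]
    obtain rfl : I = I' := Subtype.ext (Subtype.ext (mul_right_cancel₀ hJ0 hI))
    exact Prod.ext rfl (Units.ext (mul_right_cancel₀ (hβ0 I) h'))
  have hrange : ∀ v : ℤ × ℤ, v ≠ 0 → ∃ p, vec p = v := fun v hv => by
    set r := latticeElt f α v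
    have hr0 : r ≠ 0 := fun h => hv ((latticeElt_eq_zero hf.2.2.1 hg).1 h)
    obtain ⟨I, hI⟩ : J ∣ Ideal.span {r} := Ideal.dvd_iff_le.2
      ((Ideal.span_singleton_le_iff_mem _).2 (latticeElt_mem f α v))
    have hI0 : I ∈ (Ideal (𝓞 K))⁰ := mem_nonZeroDivisors_of_ne_zero fun h => hr0 (by
      rw [h, mul_zero, Ideal.zero_eq_bot, Ideal.span_singleton_eq_bot] at hI
      exact hI)
    have hclass : (ClassGroup.mk0 ⟨I, hI0⟩)⁻¹ = C := by
      refine inv_eq_of_mul_eq_one_left ?_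
      show ClassGroup.mk0 _ * ClassGroup.mk0 _ = 1
      rw [← map_mul]
      exact (ClassGroup.mk0_eq_one_iff _).2 ⟨⟨r, hI.symm⟩⟩
    have hspan : Ideal.span {β ⟨⟨I, hI0⟩, hclass⟩} = Ideal.span {r} := by
      rw [← hβ, hI, mul_comm]
    obtain ⟨u, hu⟩ := Ideal.span_singleton_eq_span_singleton.1 hspan
    refine ⟨(⟨⟨I, hI0⟩, hclass⟩, u), latticeElt_injective hf.2.2.1 hg ?_⟩
    rw [hvec, mul_comm]
    exact hu
  set c := (Real.sqrt (-(discK d : ℝ)) / 2) ^ z
  have hDpos : 0 < Real.sqrt (-(discK d : ℝ)) / 2 := by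
    have := Int.cast_lt_zero (R := ℝ) |>.2 (discK_neg hd0)
    exact div_pos (Real.sqrt_pos.2 (by linarith)) two_pos
  have ha : (0 : ℝ) < f.1 := Int.cast_pos.2 hf.2.2.1
  have hterm : ∀ p, (τ.im / Complex.normSq (((vec p).1 : ℂ) * τ + (vec p).2)) ^ z =
      c * ((absNorm p.1.1.1 : ℕ) : ℝ) ^ (-z) := fun p => by
    have hn : ((absNorm p.1.1.1 : ℕ) : ℝ) * (f.1 : ℝ) =
        (f.1 : ℝ) ^ 2 * Complex.normSq (((vec p).1 : ℂ) * τ + (vec p).2) := by
      have h1 : ((absNorm J : ℕ) : ℝ) = (f.1 : ℝ) := by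
        exact_mod_cast congrArg (Int.cast : ℤ → ℝ) (absNorm_formIdeal hK hd hd0 hs he hf hg)
      rw [← h1, ← Nat.cast_mul, ← map_mul, hβ,
        ← Ideal.span_singleton_mul_left_unit p.2.isUnit, ← hvec, Ideal.absNorm_span_singleton,
        natAbs_norm_eq hK hd0 hs he, emb_latticeElt hg, Complex.normSq_mul, Complex.normSq_intCast,
        h1, pow_two]
    have hN0 : (0 : ℝ) < ((absNorm p.1.1.1 : ℕ) : ℝ) :=
      Nat.cast_pos.2 (Nat.pos_of_ne_zero (absNorm_ne_zero_of_nonZeroDivisors p.1.1))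
    have hT : Complex.normSq (((vec p).1 : ℂ) * τ + (vec p).2) =
        ((absNorm p.1.1.1 : ℕ) : ℝ) / f.1 := by
      rw [eq_div_iff ha.ne']
      exact mul_left_cancel₀ ha.ne' (by linear_combination -hn)
    rw [hT, div_div_eq_mul_div, mul_comm τ.im, im_root hf hg, div_eq_mul_inv,
      Real.mul_rpow hDpos.le (inv_nonneg.2 hN0.le), Real.inv_rpow hN0.le, Real.rpow_neg hN0.le]
  set F : ℤ × ℤ → ℝ := fun v => (τ.im / Complex.normSq ((v.1 : ℂ) * τ + v.2)) ^ z
  have hF : HasSum F (epstein τ z) := (summable_epstein τ hz hz2).1.hasSum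
  have hpair : HasSum (fun p : InvClass C × (𝓞 K)ˣ => c * ((absNorm p.1.1.1 : ℕ) : ℝ) ^ (-z))
      (epstein τ z) := by
    refine ((hinj.hasSum_iff fun v hv => ?_).2 hF).congr_fun fun p => (hterm p).symm
    by_cases h0 : v = 0
    · simp [F, h0, Real.zero_rpow (by linarith : z ≠ 0)]
    · exact absurd (hrange v h0) hv
  haveI : Finite (𝓞 K)ˣ := Nat.finite_of_card_ne_zero (by
    rw [card_units hK hd0 hs]; exact Units.torsionOrder_ne_zero K)
  haveI : Fintype (𝓞 K)ˣ := Fintype.ofFinite _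
  have hI := hpair.prod_fiberwise fun I => hasSum_fintype fun u : (𝓞 K)ˣ =>
    c * ((absNorm I.1.1 : ℕ) : ℝ) ^ (-z)
  simp only [Finset.sum_const, Finset.card_univ, nsmul_eq_mul, ← Nat.card_eq_fintype_card,
    card_units hK hd0 hs] at hI
  have hw : (Units.torsionOrder K : ℝ) ≠ 0 := Nat.cast_ne_zero.2 (Units.torsionOrder_ne_zero K)
  have hc : c ≠ 0 := (Real.rpow_pos_of_pos hDpos z).ne'
  refine (hI.div_const ((Units.torsionOrder K : ℝ) * c)).congr_fun fun I => ?_
  field_simp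

/-- **All the classes**: `∑_f E (τ_f, z) = w (√|D| / 2) ^ z ζ_K z`. -/
theorem sum_epstein (hK : finrank ℚ K = 2) (hd : Squarefree d) (hd0 : d < 0)
    (hs : s ^ 2 = (d : K)) (he : e s = Complex.I * (Real.sqrt (-(d : ℝ)) : ℂ))
    [Fintype (FA.Singular.Red (discK d))] (T : FA.Singular.Red (discK d) → ℍ)
    (A : FA.Singular.Red (discK d) → 𝓞 K) (hg : ∀ f, IsGen e f.1 (T f) (A f))
    {z : ℝ} (hz : 1 < z) (hz2 : z ≤ 2) :
    ((∑ f, epstein (T f) z : ℝ) : ℂ) =
      (((Units.torsionOrder K : ℝ) * (Real.sqrt (-(discK d : ℝ)) / 2) ^ z : ℝ) : ℂ) *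
        dedekindZeta K z := by
  classical
  set cls : FA.Singular.Red (discK d) → ClassGroup (𝓞 K) :=
    fun f => formClass f.1 f.2.2.2.1 (A f)
  have hinj : Function.Injective cls := fun f g h =>
    Subtype.ext (eq_of_formClass_eq e hK hd hd0 hs he f.2 g.2 (hg f) (hg g) h)
  have hbij : Function.Bijective cls := by
    rw [Fintype.bijective_iff_injective_and_card]
    refine ⟨hinj, ?_⟩
    have h := classNumber_eq_ncard_red hK hd hd0 hs
    rw [classNumber, ← Nat.card_coe_set_eq, Nat.card_eq_fintype_card] at h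
    exact h.symm
  have hre : 1 < (z : ℂ).re := by simpa using hz
  have hsum : Summable fun I : (Ideal (𝓞 K))⁰ => ((absNorm I.1 : ℕ) : ℝ) ^ (-z) :=
    (FA.Ext.summable_zN hz).congr fun I => rfl
  have htot : dedekindZeta K z =
      ((∑' I : (Ideal (𝓞 K))⁰, ((absNorm I.1 : ℕ) : ℝ) ^ (-z) : ℝ) : ℂ) := by
    rw [FA.AbelianZeta.dedekindZeta_eq_tsum hre, Complex.ofReal_tsum]
    refine tsum_congr fun I => ?_
    rw [Complex.ofReal_cpow (Nat.cast_nonneg _), Complex.ofReal_natCast, Complex.ofReal_neg]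
    rfl
  set k := (Units.torsionOrder K : ℝ) * (Real.sqrt (-(discK d : ℝ)) / 2) ^ z with hk
  have hfib := ((Equiv.sigmaFiberEquiv fun I : (Ideal (𝓞 K))⁰ => (ClassGroup.mk0 I)⁻¹).hasSum_iff.2
    hsum.hasSum).sigma (g := fun C => epstein (T ((Equiv.ofBijective cls hbij).symm C)) z / k)
    fun C => by
      obtain ⟨f, rfl⟩ := hbij.2 C
      rw [Equiv.ofBijective_symm_apply_apply]
      exact hasSum_class hK hd hd0 hs he f.2 (hg f) hz hz2
  have hfin := (hasSum_fintype fun C : ClassGroup (𝓞 K) =>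
    epstein (T ((Equiv.ofBijective cls hbij).symm C)) z / k).unique hfib
  have hD : 0 < Real.sqrt (-(discK d : ℝ)) / 2 := by
    have := Int.cast_lt_zero (R := ℝ) |>.2 (discK_neg hd0)
    exact div_pos (Real.sqrt_pos.2 (by linarith)) two_pos
  have hk0 : k ≠ 0 :=
    mul_ne_zero (Nat.cast_ne_zero.2 (Units.torsionOrder_ne_zero K)) (Real.rpow_pos_of_pos hD z).ne'
  rw [htot, ← hfin, ← Finset.sum_div, ← Complex.ofReal_mul, mul_div_cancel₀ _ hk0]
  congr 1
  exact (Equiv.sum_comp (Equiv.ofBijective cls hbij).symm fun f => epstein (T f) z).symm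

end FA.ChowlaSelberg

end
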