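import Fermat.Agent.ChowlaSelberg.Lerch
import Fermat.Agent.AbelianFE.RealGauss
import Fermat.Agent.AbelianFE.ZeroValue
import Mathlib.NumberTheory.Harmonic.GammaDeriv

/-!
# The derivatives of `L (s, χ)` at `0` and `1`

Lerch's formula gives `L' (0, χ) = -log N L (0, χ) + ∑ χ a log Γ (a / N)`; for an odd real
primitive `χ` the functional equation turns this into
`L' (1, χ) = L (1, χ) (γ + log (2 π)) - π / √N ∑ χ a log Γ (a / N)`.
-/

set_option autoImplicit false

noncomputable section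

open Complex Filter Topology HurwitzZeta DirichletCharacter
open scoped Real

namespace FA.ChowlaSelberg

variable {N : ℕ} [NeZero N]

/-- `∑ χ a log Γ (a / N)`. -/
def gammaSum (χ : DirichletCharacter ℂ N) : ℂ :=
  ∑ a : ZMod N, χ a * (Real.log (Real.Gamma ((a.val : ℝ) / N)) : ℂ)

/-- **`L' (0, χ)`.** -/
theorem hasDerivAt_LFunction_zero {χ : DirichletCharacter ℂ N} (hχ : χ ≠ 1) :
    HasDerivAt (LFunction χ)
      (-(Real.log N : ℂ) * LFunction χ 0 + gammaSum χ) 0 := by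
  have hN : N ≠ 1 := by
    rintro rfl
    exact hχ (level_one χ)
  have hNC : (N : ℂ) ≠ 0 := Nat.cast_ne_zero.2 (NeZero.ne N)
  have hterm : ∀ j : ZMod N, HasDerivAt (fun s => χ j * hurwitzZeta (ZMod.toAddCircle j) s)
      (χ j * ((Real.log (Real.Gamma ((j.val : ℝ) / N)) - Real.log (2 * π) / 2 : ℝ) : ℂ)) 0 :=
    fun j => by
    rcases eq_or_ne j 0 with rfl | hj
    · simp only [χ.map_zero' hN, zero_mul]
      exact hasDerivAt_const _ _
    · rw [ZMod.toAddCircle_apply]
      have hpos : 0 < j.val := ((ZMod.val_ne_zero j).2 hj).bot_lt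
      exact (hasDerivAt_hurwitzZeta_zero (by have := NeZero.pos N; positivity)
        ((div_le_one (Nat.cast_pos.2 (NeZero.pos N))).2
          (Nat.cast_le.2 (ZMod.val_lt j).le))).const_mul _
  have hpow := (hasDerivAt_id (0 : ℂ)).neg.const_cpow (Or.inl hNC : (N : ℂ) ≠ 0 ∨ _)
  have h := hpow.mul (HasDerivAt.fun_sum (u := Finset.univ) fun j _ => hterm j)
  refine (h.congr_of_eventuallyEq (Eventually.of_forall fun s => rfl)).congr_deriv ?_
  simp only [id_eq, Pi.neg_apply, neg_zero, cpow_zero, one_mul]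
  rw [LFunction, ZMod.LFunction, neg_zero, cpow_zero, one_mul, gammaSum, ← Complex.natCast_log]
  have hsum : ∑ j : ZMod N, χ j = 0 := MulChar.sum_eq_zero_of_ne_one hχ
  push_cast
  simp only [mul_sub, Finset.sum_sub_distrib, ← Finset.sum_mul, hsum]
  ring

theorem hasDerivAt_Gammaℝ_two :
    HasDerivAt Gammaℝ (-((Real.log π + Real.eulerMascheroniConstant) / (2 * π) : ℝ) : ℂ) 2 := by
  have h1 : HasDerivAt (fun s : ℂ => (π : ℂ) ^ (-s / 2))
      ((π : ℂ) ^ (-(2 : ℂ) / 2) * Complex.log π * (-1 / 2)) 2 :=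
    ((hasDerivAt_id (2 : ℂ)).neg.div_const 2).const_cpow
      (Or.inl (Complex.ofReal_ne_zero.2 Real.pi_ne_zero))
  have h2 : HasDerivAt (fun s : ℂ => Complex.Gamma (s / 2))
      (-(Real.eulerMascheroniConstant : ℂ) * (1 / 2)) 2 := by
    have hg : HasDerivAt Complex.Gamma (-(Real.eulerMascheroniConstant : ℂ)) (id (2 : ℂ) / 2) := by
      rw [id_eq, div_self (two_ne_zero' ℂ)]
      exact Complex.hasDerivAt_Gamma_one
    exact HasDerivAt.comp (h := fun s : ℂ => id s / 2) 2 hg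
      ((hasDerivAt_id (2 : ℂ)).div_const 2)
  refine (h1.mul h2).congr_deriv ?_
  rw [neg_div, div_self (two_ne_zero' ℂ), cpow_neg_one, Complex.Gamma_one,
    ← Complex.ofReal_log Real.pi_pos.le]
  push_cast
  ring

theorem Gammaℝ_two : Gammaℝ 2 = (π : ℂ)⁻¹ := by
  rw [Gammaℝ_def, neg_div, div_self (two_ne_zero' ℂ), cpow_neg_one, Complex.Gamma_one, mul_one]

theorem completedLFunction_eq_mul {χ : DirichletCharacter ℂ N} (hodd : χ.Odd) (hN : N ≠ 1) {s : ℂ}
    (hs : -1 < s.re) : completedLFunction χ s = LFunction χ s * Gammaℝ (s + 1) := by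
  rw [LFunction_eq_completed_div_gammaFactor χ s (Or.inr hN), hodd.gammaFactor_def,
    div_mul_cancel₀ _ (Gammaℝ_ne_zero_of_re_pos (by simp; linarith))]

theorem cpow_half (N : ℕ) : (N : ℂ) ^ ((0 : ℂ) - 1 / 2) = ((Real.sqrt N : ℝ) : ℂ)⁻¹ := by
  rw [zero_sub, cpow_neg, Real.sqrt_eq_rpow, Complex.ofReal_cpow (Nat.cast_nonneg N)]
  push_cast
  rfl

/-- **`L' (1, χ)` for an odd real primitive character.** -/
theorem deriv_LFunction_one {χ : DirichletCharacter ℂ N} (hprim : χ.IsPrimitive) (hq : χ ^ 2 = 1)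
    (hodd : χ.Odd) :
    deriv (LFunction χ) 1 =
      LFunction χ 1 * ((Real.eulerMascheroniConstant + Real.log (2 * π) : ℝ) : ℂ) -
        (π : ℂ) / (Real.sqrt N : ℝ) * gammaSum χ := by
  have hN : N ≠ 1 := (FA.AbelianFE.one_lt_of_odd hodd).ne'
  have hχ1 : χ ≠ 1 := fun h => by
    have h' : χ (-1) = -1 := hodd
    rw [h, MulChar.one_apply isUnit_one.neg] at h'
    norm_num at h'
  have hinv : χ⁻¹ = χ := inv_eq_of_mul_eq_one_right (by rwa [← pow_two])
  have hNC : (N : ℂ) ≠ 0 := Nat.cast_ne_zero.2 (NeZero.ne N)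
  have hfe : ∀ᶠ s in 𝓝 (0 : ℂ), LFunction χ (1 - s) * Gammaℝ (1 - s + 1) =
      (N : ℂ) ^ (s - 1 / 2) * (LFunction χ s * Gammaℝ (s + 1)) := by
    filter_upwards [(isOpen_lt continuous_const continuous_re).mem_nhds
      (show (-1 / 2 : ℝ) < (0 : ℂ).re by norm_num),
      (isOpen_lt continuous_re continuous_const).mem_nhds
      (show (0 : ℂ).re < (1 / 2 : ℝ) by norm_num)] with s hs hs'
    have h1 : -1 / 2 < s.re := hs
    have h2 : s.re < 1 / 2 := hs'
    rw [← completedLFunction_eq_mul hodd hN (by simp; linarith),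
      ← completedLFunction_eq_mul hodd hN (by linarith), hprim.completedLFunction_one_sub,
      FA.AbelianFE.rootNumber_eq_one_of_real hprim hq, mul_one, hinv]
  have hid := hasDerivAt_id (0 : ℂ)
  have hG2 : HasDerivAt Gammaℝ (-((Real.log π + Real.eulerMascheroniConstant) / (2 * π) : ℝ) : ℂ)
      (1 - id (0 : ℂ) + 1) := by
    rw [id_eq, sub_zero, one_add_one_eq_two]; exact hasDerivAt_Gammaℝ_two
  have hG1 : HasDerivAt Gammaℝ (-(Real.eulerMascheroniConstant + Complex.log (4 * π)) / 2)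
      (id (0 : ℂ) + 1) := by
    rw [id_eq, zero_add]; exact Complex.hasDerivAt_Gammaℝ_one
  have hL1 : HasDerivAt (LFunction χ) (deriv (LFunction χ) 1) (1 - id (0 : ℂ)) := by
    rw [id_eq, sub_zero]; exact (differentiable_LFunction hχ1 1).hasDerivAt
  have hlhs := (hL1.comp 0 (hid.const_sub 1)).mul (hG2.comp 0 ((hid.const_sub 1).add_const 1))
  have hrhs := ((hid.sub_const (1 / 2)).const_cpow (Or.inl hNC : (N : ℂ) ≠ 0 ∨ _)).mul
    ((hasDerivAt_LFunction_zero hχ1).mul (hG1.comp 0 (hid.add_const 1)))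
  have heq := hlhs.unique (hrhs.congr_of_eventuallyEq (hfe.mono fun s hs => hs))
  have hval := hfe.self_of_nhds
  simp only [sub_zero, one_add_one_eq_two, zero_add, Gammaℝ_two, Gammaℝ_one, mul_one] at hval
  simp only [Function.comp_apply, Pi.mul_apply, id_eq, sub_zero, one_add_one_eq_two, zero_add,
    Gammaℝ_two, Gammaℝ_one, mul_one, cpow_half, ← Complex.natCast_log] at heq
  rw [cpow_half] at hval
  have hlog4 : Complex.log (4 * π) = ((2 * Real.log 2 + Real.log π : ℝ) : ℂ) := by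
    rw [show (4 : ℂ) * π = ((4 * π : ℝ) : ℂ) by push_cast; ring,
      ← Complex.ofReal_log (by positivity), Real.log_mul (by norm_num) Real.pi_ne_zero,
      show (4 : ℝ) = 2 ^ 2 by norm_num, Real.log_pow]
    push_cast
    ring
  rw [hlog4, mul_neg_one] at heq
  rw [Real.log_mul two_ne_zero Real.pi_ne_zero]
  have hπ : (π : ℂ) ≠ 0 := Complex.ofReal_ne_zero.2 Real.pi_ne_zero
  have hs : ((Real.sqrt N : ℝ) : ℂ) ≠ 0 :=
    Complex.ofReal_ne_zero.2 (Real.sqrt_ne_zero'.2 (Nat.cast_pos.2 (NeZero.pos N)))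
  push_cast at heq ⊢
  field_simp at hval heq ⊢
  linear_combination (-1 / 2 : ℂ) * heq - ((Real.eulerMascheroniConstant : ℂ) + 2 * Real.log 2 +
    Real.log π) / 2 * hval

end FA.ChowlaSelberg

end
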