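import Mathlib.NumberTheory.LSeries.DirichletContinuation
import Mathlib.NumberTheory.Harmonic.ZetaAsymp
import Mathlib.Analysis.SpecialFunctions.Gamma.BohrMollerup
import Mathlib.Analysis.Complex.LocallyUniformLimit
import Mathlib.Analysis.Calculus.MeanValue

/-!
# Lerch's formula

For `0 < x ≤ 1` the derivative at zero of the Hurwitz zeta function is `log Γ x - log (2 π) / 2`:
`ζ (s, x) - ζ s = x ^ (-s) + ∑_{n ≥ 1} h n - x ζ₁ (s + 1)` with
`h n = (n + x) ^ (-s) - n ^ (-s) + s x n ^ (-s - 1)`.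
-/

set_option autoImplicit false

noncomputable section

open Complex Filter Topology Set HurwitzZeta
open scoped Real Nat

namespace FA.ChowlaSelberg

/-- The series term for `n + 1`. -/
def lerchTerm (x : ℝ) (n : ℕ) (s : ℂ) : ℂ :=
  (((n : ℝ) + 1 + x : ℝ) : ℂ) ^ (-s) - (((n : ℝ) + 1 : ℝ) : ℂ) ^ (-s) +
    s * x * (((n : ℝ) + 1 : ℝ) : ℂ) ^ (-s - 1)

theorem norm_lerchTerm_le {x : ℝ} (hx : 0 ≤ x) (n : ℕ) {s : ℂ} (hs : -1 / 2 ≤ s.re) :
    ‖lerchTerm x n s‖ ≤ ‖s‖ * ‖s + 1‖ * x * x * ((n : ℝ) + 1) ^ (-s.re - 2) := by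
  rcases eq_or_ne s 0 with rfl | hs0
  · simp [lerchTerm]
  set a : ℝ := (n : ℝ) + 1 with ha
  have ha0 : 0 < a := by positivity
  have hs1 : -s - 1 ≠ 0 := fun h => by
    have := congrArg Complex.re h
    simp at this
    linarith
  have hd : ∀ u ∈ Icc a (a + x), HasDerivWithinAt
      (fun u : ℝ => (u : ℂ) ^ (-s) + s * u * (a : ℂ) ^ (-s - 1))
      (-s * ((u : ℂ) ^ (-s - 1) - (a : ℂ) ^ (-s - 1))) (Icc a (a + x)) u := fun u hu => by
    refine HasDerivAt.hasDerivWithinAt ?_
    have h := (hasDerivAt_ofReal_cpow_const (ha0.trans_le hu.1).ne' (neg_ne_zero.2 hs0)).add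
      (((Complex.ofRealCLM.hasDerivAt (x := u)).const_mul s).mul_const ((a : ℂ) ^ (-s - 1)))
    refine h.congr_deriv ?_
    rw [Complex.ofRealCLM_apply, Complex.ofReal_one]
    ring
  have hin : ∀ u ∈ Ico a (a + x),
      ‖-s * ((u : ℂ) ^ (-s - 1) - (a : ℂ) ^ (-s - 1))‖ ≤
        ‖s‖ * (‖s + 1‖ * a ^ (-s.re - 2) * x) := fun u hu => by
    rw [norm_mul, norm_neg]
    refine mul_le_mul_of_nonneg_left ?_ (norm_nonneg _)
    have hd2 : ∀ v ∈ Icc a u, HasDerivWithinAt (fun v : ℝ => (v : ℂ) ^ (-s - 1))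
        ((-s - 1) * (v : ℂ) ^ (-s - 1 - 1)) (Icc a u) v := fun v hv =>
      (hasDerivAt_ofReal_cpow_const (ha0.trans_le hv.1).ne' hs1).hasDerivWithinAt
    refine (norm_image_sub_le_of_norm_deriv_le_segment' hd2
      (C := ‖s + 1‖ * a ^ (-s.re - 2)) (fun v hv => ?_) u (right_mem_Icc.2 hu.1)).trans ?_
    · rw [norm_mul, show -s - 1 = -(s + 1) by ring, norm_neg,
        norm_cpow_eq_rpow_re_of_pos (ha0.trans_le hv.1)]
      refine mul_le_mul_of_nonneg_left ?_ (norm_nonneg _)
      rw [show (-(s + 1) - 1).re = -s.re - 2 by simp; ring]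
      exact Real.rpow_le_rpow_of_nonpos ha0 hv.1 (by linarith)
    · exact mul_le_mul_of_nonneg_left (by linarith [hu.2]) (by positivity)
  have h := norm_image_sub_le_of_norm_deriv_le_segment' hd hin (a + x)
    (right_mem_Icc.2 (le_add_of_nonneg_right hx))
  rw [add_sub_cancel_left] at h
  refine le_trans (le_of_eq ?_) (h.trans (le_of_eq (by ring)))
  congr 1
  rw [lerchTerm, ← ha]
  push_cast
  ring

/-- The open set where the series converges normally. -/
def lerchDomain (M : ℝ) : Set ℂ := {s | -1 / 2 < s.re} ∩ Metric.ball 0 M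

theorem isOpen_lerchDomain (M : ℝ) : IsOpen (lerchDomain M) :=
  (isOpen_lt continuous_const continuous_re).inter Metric.isOpen_ball

theorem differentiable_lerchTerm {x : ℝ} (hx : 0 ≤ x) (n : ℕ) :
    Differentiable ℂ (lerchTerm x n) := fun s => by
  have h1 : (((n : ℝ) + 1 + x : ℝ) : ℂ) ≠ 0 := Complex.ofReal_ne_zero.2 (by positivity)
  have h2 : (((n : ℝ) + 1 : ℝ) : ℂ) ≠ 0 := Complex.ofReal_ne_zero.2 (by positivity)
  exact ((differentiableAt_id.neg.const_cpow (Or.inl h1)).sub
    (differentiableAt_id.neg.const_cpow (Or.inl h2))).add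
      ((differentiableAt_id.mul_const _).mul
        ((differentiableAt_id.neg.sub_const 1).const_cpow (Or.inl h2)))

theorem summable_rpow_shift : Summable fun n : ℕ => ((n : ℝ) + 1) ^ (-3 / 2 : ℝ) := by
  have := (summable_nat_add_iff 1).2 (Real.summable_nat_rpow.2 (by norm_num : (-3 / 2 : ℝ) < -1))
  simpa using this

theorem norm_lerchTerm_le_domain {x : ℝ} (hx : 0 ≤ x) (n : ℕ) {M : ℝ} {s : ℂ}
    (hs : s ∈ lerchDomain M) :
    ‖lerchTerm x n s‖ ≤ M * (M + 1) * x * x * ((n : ℝ) + 1) ^ (-3 / 2 : ℝ) := by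
  have h1 : -1 / 2 < s.re := hs.1
  have h2 : ‖s‖ ≤ M := (mem_ball_zero_iff.1 hs.2).le
  have hM : 0 ≤ M := (norm_nonneg _).trans h2
  refine (norm_lerchTerm_le hx n h1.le).trans ?_
  have h3 : ‖s + 1‖ ≤ M + 1 := (norm_add_le _ _).trans (by rw [norm_one]; linarith)
  gcongr
  · simp
  · linarith

/-- The right-hand side. -/
def lerchSum (x : ℝ) (s : ℂ) : ℂ :=
  (x : ℂ) ^ (-s) + ∑' n : ℕ, lerchTerm x n s - x * riemannZeta₁ (s + 1)

theorem differentiableOn_lerchSum {x : ℝ} (hx : 0 < x) :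
    DifferentiableOn ℂ (lerchSum x) {s | -1 / 2 < s.re} := fun s hs => by
  have hmem : s ∈ lerchDomain (‖s‖ + 1) := ⟨hs, by simp⟩
  have hd : DifferentiableAt ℂ (fun w => ∑' n, lerchTerm x n w) s :=
    (differentiableOn_tsum_of_summable_norm (summable_rpow_shift.mul_left _)
      (fun n => (differentiable_lerchTerm hx.le n).differentiableOn)
      (isOpen_lerchDomain _) fun n w hw => norm_lerchTerm_le_domain hx.le n hw).differentiableAt
        ((isOpen_lerchDomain _).mem_nhds hmem)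
  exact (((differentiableAt_id.neg.const_cpow (Or.inl (Complex.ofReal_ne_zero.2 hx.ne'))).add
    hd).sub (((differentiable_riemannZeta₁ _).comp s (differentiableAt_id.add_const 1)).const_mul
      _)).differentiableWithinAt

theorem hurwitzZeta_sub_riemannZeta {x : ℝ} (hx : 0 < x) (hx1 : x ≤ 1) {s : ℂ}
    (hs : -1 / 2 < s.re) :
    hurwitzZeta (x : UnitAddCircle) s - riemannZeta s = lerchSum x s := by
  rw [← hurwitzZeta_zero]
  set U : Set ℂ := {s | -1 / 2 < s.re}
  have hU : IsOpen U := isOpen_lt continuous_const continuous_re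
  refine AnalyticOnNhd.eqOn_of_preconnected_of_eventuallyEq
    ((differentiable_hurwitzZeta_sub_hurwitzZeta
      (x : UnitAddCircle) 0).differentiableOn.analyticOnNhd hU)
    ((differentiableOn_lerchSum hx).analyticOnNhd hU)
    (convex_halfSpace_re_gt (-1 / 2)).isPreconnected (z₀ := 2) (by norm_num [U]) ?_ hs
  filter_upwards [(isOpen_lt continuous_const continuous_re).mem_nhds
    (show (1 : ℝ) < (2 : ℂ).re by norm_num)] with w hw
  have hw1 : 1 < w.re := hw
  have hw0 : w ≠ 0 := fun h => by simp [h] at hw1; linarith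
  rw [hurwitzZeta_zero]
  have h1 := (hasSum_nat_add_iff' 1).2
    (hasSum_hurwitzZeta_of_one_lt_re (a := x) ⟨hx.le, hx1⟩ hw1)
  have hz : ∀ u : ℂ, 1 < u.re →
      HasSum (fun n : ℕ => (((n : ℝ) + 1 : ℝ) : ℂ) ^ (-u)) (riemannZeta u) := fun u hu => by
    rw [zeta_eq_tsum_one_div_nat_add_one_cpow hu]
    have hs' : Summable fun n : ℕ => 1 / ((n : ℂ) + 1) ^ u := by
      have := (summable_nat_add_iff 1).2 (Complex.summable_one_div_nat_cpow.2 hu)
      simpa using this
    refine hs'.hasSum.congr_fun fun n => ?_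
    rw [cpow_neg, one_div]
    push_cast
    rfl
  have hzn := hz (w + 1) (by simp; linarith)
  have htot := ((h1.sub (hz w hw1)).add (hzn.mul_left (w * x))).congr_fun
    (g := fun n => lerchTerm x n w) fun n => by
      rw [lerchTerm, show -w - 1 = -(w + 1) by ring]
      push_cast
      rw [one_div, ← cpow_neg]
  rw [lerchSum, htot.tsum_eq, Finset.sum_range_one,
    riemannZeta_eq_inv_sub_mul (show w + 1 ≠ 1 by simpa using hw0), cpow_neg (x : ℂ)]
  simp only [Nat.cast_zero, zero_add, add_sub_cancel_right, one_div]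
  field_simp
  ring

theorem deriv_lerchTerm_zero {x : ℝ} (hx : 0 ≤ x) (n : ℕ) :
    deriv (lerchTerm x n) 0 =
      ((-Real.log ((n : ℝ) + 1 + x) + Real.log ((n : ℝ) + 1) + x / ((n : ℝ) + 1) : ℝ) : ℂ) := by
  have h1 : (((n : ℝ) + 1 + x : ℝ) : ℂ) ≠ 0 := Complex.ofReal_ne_zero.2 (by positivity)
  have h2 : (((n : ℝ) + 1 : ℝ) : ℂ) ≠ 0 := Complex.ofReal_ne_zero.2 (by positivity)
  have hn := (hasDerivAt_id (0 : ℂ)).neg
  have h := ((hn.const_cpow (Or.inl h1)).sub (hn.const_cpow (Or.inl h2))).add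
    (((hasDerivAt_id (0 : ℂ)).mul_const (x : ℂ)).mul ((hn.sub_const 1).const_cpow (Or.inl h2)))
  refine (h.congr_of_eventuallyEq ?_).deriv.trans ?_
  · exact Eventually.of_forall fun s => rfl
  · simp only [id_eq, Pi.neg_apply, neg_zero, cpow_zero, zero_sub, cpow_neg_one, zero_mul,
      add_zero, one_mul]
    have la := Complex.ofReal_log (show (0 : ℝ) ≤ (n : ℝ) + 1 + x by positivity)
    have lb := Complex.ofReal_log (show (0 : ℝ) ≤ (n : ℝ) + 1 by positivity)
    push_cast at la lb ⊢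
    rw [la, lb]
    ring

theorem tendsto_partial {x : ℝ} (hx : 0 < x) :
    Tendsto (fun N : ℕ => ∑ n ∈ Finset.range N,
      (-Real.log ((n : ℝ) + 1 + x) + Real.log ((n : ℝ) + 1) + x / ((n : ℝ) + 1))) atTop
      (𝓝 (Real.log (Real.Gamma x) + Real.log x + x * Real.eulerMascheroniConstant)) := by
  refine (((Real.BohrMollerup.tendsto_log_gamma hx).add_const (Real.log x)).add
    (Real.tendsto_harmonic_sub_log.const_mul x)).congr fun N => ?_
  rw [Real.BohrMollerup.logGammaSeq, Finset.sum_range_succ' _ N]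
  have hfac : Real.log (N ! : ℝ) = ∑ n ∈ Finset.range N, Real.log ((n : ℝ) + 1) := by
    induction N with
    | zero => simp
    | succ k ih =>
      rw [Finset.sum_range_succ, ← ih, Nat.factorial_succ, Nat.cast_mul,
        Real.log_mul (by positivity) (by positivity)]
      push_cast
      ring
  have hharm : ((harmonic N : ℚ) : ℝ) = ∑ n ∈ Finset.range N, 1 / ((n : ℝ) + 1) := by
    rw [harmonic]
    push_cast
    simp [one_div]
  rw [hfac, hharm, Finset.sum_add_distrib, Finset.sum_add_distrib, Finset.sum_neg_distrib]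
  have e : ∀ n : ℕ, Real.log (x + ((n + 1 : ℕ) : ℝ)) = Real.log ((n : ℝ) + 1 + x) := fun n => by
    push_cast
    ring_nf
  simp only [e, Nat.cast_zero, add_zero, mul_sub, Finset.mul_sum, mul_one_div]
  ring

/-- **Lerch's formula.** -/
theorem hasDerivAt_hurwitzZeta_zero {x : ℝ} (hx : 0 < x) (hx1 : x ≤ 1) :
    HasDerivAt (hurwitzZeta (x : UnitAddCircle))
      ((Real.log (Real.Gamma x) - Real.log (2 * π) / 2 : ℝ) : ℂ) 0 := by
  have hmem : (0 : ℂ) ∈ lerchDomain 1 := ⟨by norm_num, by simp⟩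
  have hu := summable_rpow_shift.mul_left ((1 : ℝ) * (1 + 1) * x * x)
  have hdiff := fun n => (differentiable_lerchTerm hx.le n).differentiableOn (s := lerchDomain 1)
  have hle := fun n w hw => norm_lerchTerm_le_domain hx.le n (M := 1) (s := w) hw
  have hsum := hasSum_deriv_of_summable_norm hu hdiff (isOpen_lerchDomain 1) hle hmem
  have hval : deriv (fun w => ∑' n, lerchTerm x n w) 0 =
      ((Real.log (Real.Gamma x) + Real.log x + x * Real.eulerMascheroniConstant : ℝ) : ℂ) := by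
    refine tendsto_nhds_unique hsum.tendsto_sum_nat ?_
    refine ((Complex.continuous_ofReal.tendsto _).comp (tendsto_partial hx)).congr fun N => ?_
    rw [Function.comp_apply, Complex.ofReal_sum]
    exact Finset.sum_congr rfl fun n _ => (deriv_lerchTerm_zero hx.le n).symm
  have hd := ((differentiableOn_tsum_of_summable_norm hu hdiff (isOpen_lerchDomain 1) hle
    ).differentiableAt ((isOpen_lerchDomain 1).mem_nhds hmem)).hasDerivAt
  rw [hval] at hd
  have h0 := (hasDerivAt_id (0 : ℂ)).neg.const_cpow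
    (Or.inl (Complex.ofReal_ne_zero.2 hx.ne') : (x : ℂ) ≠ 0 ∨ _)
  have hz1 : HasDerivAt riemannZeta₁ (Real.eulerMascheroniConstant : ℂ) (id (0 : ℂ) + 1) := by
    rw [id_eq, zero_add, ← deriv_riemannZeta₁_one]
    exact (differentiable_riemannZeta₁ 1).hasDerivAt
  have hz : HasDerivAt riemannZeta ((-Real.log (2 * π) / 2 : ℝ) : ℂ) 0 := by
    have h := (differentiableAt_riemannZeta (zero_ne_one : (0 : ℂ) ≠ 1)).hasDerivAt
    rw [deriv_riemannZeta_zero] at h
    refine h.congr_deriv ?_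
    rw [Complex.ofReal_div, Complex.ofReal_neg, Complex.ofReal_log (by positivity)]
    push_cast
    ring
  have htot := ((h0.add hd).sub
    ((hz1.comp 0 ((hasDerivAt_id (0 : ℂ)).add_const 1)).const_mul (x : ℂ))).add hz
  refine (htot.congr_of_eventuallyEq ?_).congr_deriv ?_
  · filter_upwards [(isOpen_lt continuous_const continuous_re).mem_nhds
      (show (-1 / 2 : ℝ) < (0 : ℂ).re by norm_num)] with s hs
    have := hurwitzZeta_sub_riemannZeta hx hx1 hs
    rw [lerchSum] at this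
    simp only [Pi.add_apply, Pi.sub_apply, Function.comp_apply, id_eq, Pi.neg_apply]
    linear_combination this
  · simp only [id_eq, Pi.neg_apply, neg_zero, cpow_zero, ← Complex.ofReal_log hx.le]
    push_cast
    ring

end FA.ChowlaSelberg

end
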