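import Fermat.Agent.ChowlaSelberg.Classes
import Fermat.Agent.ChowlaSelberg.LValues

/-!
# The Chowla–Selberg formula

Summing the limit formula over the reduced forms of discriminant `D` compares the constant term of
`w (√|D| / 2) ^ z ζ z L (z, χ)` at `z = 1` with `∑ log (√y |η|²)`; with `L' (1, χ)` from Lerch's
formula this is `∑_f log (√y_f |η τ_f|²) = -h/2 log (4 π √|D|) + w/4 ∑ χ a log Γ (a / |D|)`.
-/

set_option autoImplicit false
set_option linter.style.haveILetI false

noncomputable section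

open NumberField Module DirichletCharacter Filter Topology UpperHalfPlane
open FA.FieldClassBound FA.KroneckerLimit
open scoped Real

namespace FA.ChowlaSelberg

/-- `√y |η τ|²`. -/
def height (τ : ℍ) : ℝ := √τ.im * ‖ModularForm.eta τ‖ ^ 2

theorem height_pos (τ : ℍ) : 0 < height τ :=
  mul_pos (Real.sqrt_pos.2 τ.im_pos) (pow_pos (norm_pos_iff.2
    (ModularForm.eta_ne_zero τ.im_pos)) 2)

theorem ne_one_of_odd {N : ℕ} {χ : DirichletCharacter ℂ N} (hodd : χ.Odd) : χ ≠ 1 := fun h => by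
  have h' : χ (-1) = -1 := hodd
  rw [h, MulChar.one_apply isUnit_one.neg] at h'
  norm_num at h'

/-- A real character has real values. -/
theorem apply_eq_re {N : ℕ} {χ : DirichletCharacter ℂ N} (hq : χ ^ 2 = 1) (a : ZMod N) :
    χ a = ((χ a).re : ℂ) := by
  by_cases ha : IsUnit a
  · have h : χ a ^ 2 = 1 := by rw [← MulChar.pow_apply' χ two_ne_zero, hq, MulChar.one_apply ha]
    rcases sq_eq_one_iff.1 h with h | h <;> simp [h]
  · simp [χ.map_nonunit ha]

/-- The two sides of the limit formula, for any family of heights. -/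
theorem limit_compare {ι : Type*} [Fintype ι] (T : ι → ℍ) {L : ℂ → ℂ} (hL : Differentiable ℂ L)
    {w c : ℝ} (hc : 0 < c)
    (hsum : ∀ z : ℝ, 1 < z → z ≤ 2 →
      ((∑ f, epstein (T f) z : ℝ) : ℂ) = ((w * c ^ z : ℝ) : ℂ) * (riemannZeta z * L z)) :
    (w : ℂ) * c * L 1 = (Fintype.card ι : ℂ) * π ∧
      ((∑ f, 2 * π * (Real.eulerMascheroniConstant - Real.log 2 - Real.log (height (T f))) : ℝ) :
        ℂ) = (w : ℂ) * c * L 1 * (Real.eulerMascheroniConstant + Real.log c : ℝ) +
          (w : ℂ) * c * deriv L 1 := by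
  set g : ℂ → ℂ := fun z => (w : ℂ) * (c : ℂ) ^ z * L z with hgdef
  have hc' : (c : ℂ) ≠ 0 := Complex.ofReal_ne_zero.2 hc.ne'
  have hg1 : g 1 = (w : ℂ) * c * L 1 := by simp [hgdef]
  have hg : HasDerivAt g ((w : ℂ) * ((c : ℂ) * Complex.log c) * L 1 +
      (w : ℂ) * c * deriv L 1) 1 := by
    have h1 := (((hasDerivAt_id (1 : ℂ)).const_cpow (c := (c : ℂ)) (Or.inl hc')).const_mul
      (w : ℂ)).mul (hL 1).hasDerivAt
    simpa [hgdef, Pi.mul_def] using h1
  have hi : Tendsto (fun s : ℝ => (s : ℂ)) (𝓝[>] (1 : ℝ)) (𝓝[≠] (1 : ℂ)) := by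
    refine tendsto_nhdsWithin_iff.2 ⟨?_, ?_⟩
    · simpa using (Complex.continuous_ofReal.tendsto 1).mono_left nhdsWithin_le_nhds
    · filter_upwards [self_mem_nhdsWithin] with s hs
      simpa using (ne_of_gt (show (1 : ℝ) < s from hs))
  have hsl : Tendsto (fun s : ℝ => (g s - g 1) / ((s : ℂ) - 1)) (𝓝[>] 1)
      (𝓝 ((w : ℂ) * ((c : ℂ) * Complex.log c) * L 1 + (w : ℂ) * c * deriv L 1)) :=
    ((hasDerivAt_iff_tendsto_slope.1 hg).comp hi).congr fun s => by
      rw [Function.comp_apply, slope_def_field]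
  have hgc : Tendsto (fun s : ℝ => g s) (𝓝[>] 1) (𝓝 (g 1)) := by
    have := hg.continuousAt.tendsto.comp (hi.mono_right nhdsWithin_le_nhds)
    exact this
  have hz := ZetaAsymptotics.tendsto_riemannZeta_sub_one_div_nhds_right
  have hE : Tendsto (fun s : ℝ => ∑ f, (epstein (T f) s - π / (s - 1))) (𝓝[>] 1)
      (𝓝 (∑ f, 2 * π * (Real.eulerMascheroniConstant - Real.log 2 -
        Real.log (height (T f))))) :=
    tendsto_finsetSum _ fun f _ => tendsto_epstein_sub (T f)
  set Lim := ((∑ f, 2 * π * (Real.eulerMascheroniConstant - Real.log 2 -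
        Real.log (height (T f))) : ℝ) : ℂ) with hLim
  have hEC := (Complex.continuous_ofReal.tendsto _).comp hE
  have hd : Tendsto (fun s : ℝ => (g 1 - (Fintype.card ι : ℂ) * π) / ((s : ℂ) - 1)) (𝓝[>] 1)
      (𝓝 (Lim - (g 1 * (Real.eulerMascheroniConstant : ℂ) +
        ((w : ℂ) * ((c : ℂ) * Complex.log c) * L 1 + (w : ℂ) * c * deriv L 1)))) := by
    refine (hEC.sub ((hgc.mul hz).add hsl)).congr' ?_
    filter_upwards [Ioo_mem_nhdsGT (show (1 : ℝ) < 2 by norm_num)] with s hs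
    rw [Function.comp_apply, Finset.sum_sub_distrib, Complex.ofReal_sub, hsum s hs.1 hs.2.le,
      Finset.sum_const, Finset.card_univ, nsmul_eq_mul]
    simp only [hgdef, Complex.ofReal_mul, Complex.ofReal_cpow hc.le]
    push_cast
    ring
  have hid : Tendsto (fun s : ℝ => (s : ℂ) - 1) (𝓝[>] 1) (𝓝 0) :=
    (Complex.continuous_ofReal.sub continuous_const).tendsto' 1 _ (by simp)
      |>.mono_left nhdsWithin_le_nhds
  have hne : ∀ᶠ s : ℝ in 𝓝[>] 1, (s : ℂ) - 1 ≠ 0 := by
    filter_upwards [self_mem_nhdsWithin] with s hs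
    simpa [sub_eq_zero] using (ne_of_gt (show (1 : ℝ) < s from hs))
  have h1 : g 1 - (Fintype.card ι : ℂ) * π = 0 := by
    refine tendsto_nhds_unique (l := 𝓝[>] (1 : ℝ)) tendsto_const_nhds ?_
    have := hd.mul hid
    rw [mul_zero] at this
    exact this.congr' (hne.mono fun s hs => by rw [div_mul_cancel₀ _ hs])
  simp only [h1, zero_div] at hd
  have h2 := tendsto_nhds_unique tendsto_const_nhds hd
  rw [hg1] at h1 h2
  refine ⟨sub_eq_zero.1 h1, ?_⟩
  rw [← Complex.ofReal_log hc.le] at h2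
  push_cast at h2 ⊢
  linear_combination -h2

variable {K : Type*} [Field K] [NumberField K] {d : ℤ} {s : K}

/-- **The formula of Chowla and Selberg**, with the class number formula. -/
theorem main (hK : finrank ℚ K = 2) (hd : Squarefree d) (hd0 : d < 0) (hs : s ^ 2 = (d : K))
    {N : ℕ} [NeZero N] (hN : N = (discr K).natAbs) {χ : DirichletCharacter ℂ N}
    (hprim : χ.IsPrimitive) (hq : χ ^ 2 = 1) (hodd : χ.Odd)
    (hζ : ∀ z : ℂ, 1 < z.re → dedekindZeta K z = riemannZeta z * LFunction χ z)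
    [Fintype (FA.Singular.Red (discK d))] (T : FA.Singular.Red (discK d) → ℍ)
    (hT : ∀ f, FA.Singular.IsRoot f.1 (T f)) :
    (LFunction χ 1 = ((2 * π * classNumber K / (Units.torsionOrder K * √N) : ℝ) : ℂ)) ∧
      ∑ f, Real.log (height (T f)) =
        -((classNumber K : ℝ) / 2) * Real.log (4 * π * √N) +
          (Units.torsionOrder K : ℝ) / 4 *
            ∑ a : ZMod N, (χ a).re * Real.log (Real.Gamma ((a.val : ℝ) / N)) := by
  obtain ⟨e, he⟩ := exists_emb hd0 hs
  choose τ A hg using fun f : FA.Singular.Red (discK d) =>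
    FA.FieldClassBound.exists_gen e hd0 hs he (f := (f : ℤ × ℤ × ℤ)) f.2.2.2.1 f.2.1
  obtain rfl : τ = T := funext fun f => FA.Singular.root_unique f.2.2.2.1.ne' (hg f).1 (hT f)
  have hND : -(discK d : ℝ) = N := by
    rw [hN, discr_eq_discK hK hd hd0 hs, Nat.cast_natAbs, Int.cast_abs, abs_of_neg]
    exact Int.cast_lt_zero.2 (discK_neg hd0)
  have hNpos : (0 : ℝ) < √N := Real.sqrt_pos.2 (Nat.cast_pos.2 (Nat.pos_of_ne_zero (NeZero.ne N)))
  have hh : Fintype.card (FA.Singular.Red (discK d)) = classNumber K := by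
    rw [classNumber_eq_ncard_red hK hd hd0 hs, ← Nat.card_coe_set_eq, Nat.card_eq_fintype_card]
  obtain ⟨h1, h2⟩ := limit_compare τ (differentiable_LFunction (ne_one_of_odd hodd))
    (w := (Units.torsionOrder K : ℝ)) (c := √N / 2) (by positivity) fun z hz hz2 => by
      rw [sum_epstein hK hd hd0 hs he τ A hg hz hz2, hND, hζ z (by simpa using hz)]
  rw [hh] at h1
  have hw : (Units.torsionOrder K : ℝ) ≠ 0 := Nat.cast_ne_zero.2 (Units.torsionOrder_ne_zero K)
  have hL : LFunction χ 1 =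
      ((2 * π * classNumber K / (Units.torsionOrder K * √N) : ℝ) : ℂ) := by
    have hwC : ((Units.torsionOrder K : ℕ) : ℂ) ≠ 0 :=
      Nat.cast_ne_zero.2 (Units.torsionOrder_ne_zero K)
    have hsC : ((√N : ℝ) : ℂ) ≠ 0 := Complex.ofReal_ne_zero.2 hNpos.ne'
    push_cast at h1 ⊢
    rw [eq_div_iff (mul_ne_zero hwC hsC)]
    linear_combination 2 * h1
  refine ⟨hL, ?_⟩
  have hG : gammaSum χ =
      ((∑ a : ZMod N, (χ a).re * Real.log (Real.Gamma ((a.val : ℝ) / N)) : ℝ) : ℂ) := by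
    rw [gammaSum, Complex.ofReal_sum]
    exact Finset.sum_congr rfl fun a _ => by rw [Complex.ofReal_mul, ← apply_eq_re hq]
  rw [deriv_LFunction_one hprim hq hodd, hL, hG, Finset.sum_congr rfl
    fun f _ => mul_sub _ _ _, Finset.sum_sub_distrib, Finset.sum_const, Finset.card_univ, hh,
    nsmul_eq_mul, ← Finset.mul_sum] at h2
  set G := ∑ a : ZMod N, (χ a).re * Real.log (Real.Gamma ((a.val : ℝ) / N))
  set S := ∑ f, Real.log (height (τ f))
  have h3 : (classNumber K : ℝ) * (2 * π * (Real.eulerMascheroniConstant - Real.log 2)) -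
      2 * π * S =
      π * classNumber K * (Real.eulerMascheroniConstant + Real.log (√N / 2)) +
        (π * classNumber K * (Real.eulerMascheroniConstant + Real.log (2 * π)) -
          (Units.torsionOrder K : ℝ) * π / 2 * G) := by
    apply Complex.ofReal_injective
    have hsC : ((√N : ℝ) : ℂ) ≠ 0 := Complex.ofReal_ne_zero.2 hNpos.ne'
    have hwC : ((Units.torsionOrder K : ℕ) : ℂ) ≠ 0 :=
      Nat.cast_ne_zero.2 (Units.torsionOrder_ne_zero K)
    push_cast at h2 ⊢
    rw [h2]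
    field_simp
  rw [Real.log_div hNpos.ne' two_ne_zero, Real.log_mul two_ne_zero Real.pi_ne_zero] at h3
  rw [Real.log_mul (by positivity) hNpos.ne', Real.log_mul (by norm_num) Real.pi_ne_zero,
    show (4 : ℝ) = 2 ^ 2 by norm_num, Real.log_pow]
  push_cast
  refine mul_left_cancel₀ (mul_ne_zero two_ne_zero Real.pi_ne_zero) ?_
  linear_combination -h3

/-- **Product form.** -/
theorem prod_height (hK : finrank ℚ K = 2) (hd : Squarefree d) (hd0 : d < 0)
    (hs : s ^ 2 = (d : K)) {N : ℕ} [NeZero N] (hN : N = (discr K).natAbs)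
    {χ : DirichletCharacter ℂ N} (hprim : χ.IsPrimitive) (hq : χ ^ 2 = 1) (hodd : χ.Odd)
    (hζ : ∀ z : ℂ, 1 < z.re → dedekindZeta K z = riemannZeta z * LFunction χ z)
    [Fintype (FA.Singular.Red (discK d))] (T : FA.Singular.Red (discK d) → ℍ)
    (hT : ∀ f, FA.Singular.IsRoot f.1 (T f)) :
    ∏ f, height (T f) = (4 * π * √N) ^ (-((classNumber K : ℝ) / 2)) *
      ∏ a : ZMod N, Real.Gamma ((a.val : ℝ) / N) ^
        ((Units.torsionOrder K : ℝ) / 4 * (χ a).re) := by
  have hN1 : 1 < N := FA.AbelianFE.one_lt_of_odd hodd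
  have hpos : ∀ a : ZMod N, a ≠ 0 → 0 < Real.Gamma ((a.val : ℝ) / N) := fun a ha =>
    Real.Gamma_pos_of_pos (div_pos (Nat.cast_pos.2 (Nat.pos_of_ne_zero fun h =>
      ha ((ZMod.val_eq_zero a).1 h))) (Nat.cast_pos.2 (by omega)))
  have hbase : 0 < 4 * π * √N :=
    mul_pos (by positivity) (Real.sqrt_pos.2 (Nat.cast_pos.2 (by omega)))
  rw [← Real.exp_log (Finset.prod_pos fun f _ => height_pos (T f)),
    Real.log_prod fun f _ => (height_pos (T f)).ne', (main hK hd hd0 hs hN hprim hq hodd hζ T hT).2,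
    Real.exp_add, Real.rpow_def_of_pos hbase, mul_comm (Real.log (4 * π * √N)), Finset.mul_sum,
    Real.exp_sum]
  congr 1
  refine Finset.prod_congr rfl fun a _ => ?_
  rcases eq_or_ne a 0 with rfl | ha
  · haveI : Fact (1 < N) := ⟨hN1⟩
    simp [MulChar.map_nonunit χ not_isUnit_zero]
  · rw [Real.rpow_def_of_pos (hpos a ha)]
    ring_nf

end FA.ChowlaSelberg

end
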