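import Fermat.Agent.ChowlaSelberg.Scaled
import Fermat.Agent.ChowlaSelberg.Main

/-!
# The periods of CM lattices are products of Gamma values

`Δ` takes values in one class modulo algebraic numbers at the points of an imaginary quadratic
field, so the product formula identifies the class as `Ω ^ 12` for
`Ω = π ^ (-1/2) ∏ Γ (a / |D|) ^ (w χ a / (4 h))`.
-/

set_option autoImplicit false
set_option linter.style.haveILetI false

noncomputable section

open NumberField Module DirichletCharacter UpperHalfPlane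
open FA.ModField FA.FieldClassBound
open scoped Real

namespace FA.ChowlaSelberg

local notation "Δ" => ModularForm.discriminant

/-- The Chowla–Selberg period of `K` for the character `χ`. -/
def csOmega (K : Type*) [Field K] [NumberField K] {N : ℕ} [NeZero N]
    (χ : DirichletCharacter ℂ N) : ℝ :=
  (√π)⁻¹ * ∏ a : ZMod N, Real.Gamma ((a.val : ℝ) / N) ^
    ((Units.torsionOrder K : ℝ) * (χ a).re / (4 * classNumber K))

theorem isAlgebraic_discriminant_div_scale {σ : ℍ} (a : ℕ) [NeZero a]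
    (hj : IsAlgebraic ℚ (jfun σ)) :
    IsAlgebraic ℚ (Δ σ / Δ (scaleH a σ)) := by
  simpa using (isAlgebraic_deltaScale_div (N := a) hj).inv

/-- Points differing by a rational affine map. -/
theorem isAlgebraic_discriminant_ratio {τ τ' : ℍ} (hj : IsAlgebraic ℚ (jfun τ))
    (hj' : IsAlgebraic ℚ (jfun τ')) {a n : ℕ} [NeZero a] [NeZero n] {b : ℤ}
    (h : (n : ℂ) * τ = a * τ' + b) : IsAlgebraic ℚ (Δ τ / Δ τ') := by
  have hper : Δ (scaleH n τ) = Δ (scaleH a τ') := by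
    have hq : ∀ m : ℕ, Function.Periodic.qParam 1 (scaleH n τ : ℂ) ^ m =
        Function.Periodic.qParam 1 (scaleH a τ' : ℂ) ^ m := fun m => by
      congr 1
      rw [coe_scaleH, coe_scaleH, h, Function.Periodic.qParam, Function.Periodic.qParam,
        Complex.exp_eq_exp_iff_exists_int]
      exact ⟨b, by push_cast; ring⟩
    exact (hasSum_discriminant _).unique
      ((hasSum_discriminant (scaleH a τ')).congr_fun fun m => by rw [hq m])
  have := (isAlgebraic_discriminant_div_scale n hj).mul (isAlgebraic_deltaScale_div (N := a) hj')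
  rwa [← hper, div_mul_div_comm, mul_comm (Δ (scaleH n τ)) (Δ τ'),
    mul_div_mul_right _ _ (ModularForm.discriminant_ne_zero _)] at this

variable {K : Type*} [Field K] [NumberField K] {d : ℤ} {s : K} {e : K →+* ℂ}

theorem exists_rat_coord (hK : finrank ℚ K = 2) (hd0 : d < 0) (hs : s ^ 2 = (d : K))
    {τ : ℍ} (hτ : (τ : ℂ) ∈ e.range) :
    ∃ u v : ℚ, v ≠ 0 ∧ (τ : ℂ) = (u : ℂ) + (v : ℂ) * e s := by
  obtain ⟨x, hx⟩ := hτ
  obtain ⟨u, v, rfl⟩ := FA.ClassNumberOne.exists_coord hK hd0 hs x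
  refine ⟨u, v, fun hv => ?_, ?_⟩
  · subst hv
    have him := congrArg Complex.im hx
    simp at him
    exact τ.im_pos.ne' him.symm
  · rw [← hx, map_add, map_mul, map_ratCast, map_ratCast]

theorem isAlgebraic_jfun_of_mem (hK : finrank ℚ K = 2) (hd0 : d < 0) (hs : s ^ 2 = (d : K))
    {τ : ℍ} (hτ : (τ : ℂ) ∈ e.range) : IsAlgebraic ℚ (jfun τ) := by
  obtain ⟨u, v, -, huv⟩ := exists_rat_coord hK hd0 hs hτ
  have hes : e s ^ 2 = (d : ℂ) := by rw [← map_pow, hs, map_intCast]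
  set q : ℚ := u ^ 2 - v ^ 2 * d
  set p : ℚ := -2 * u
  have hr : (τ : ℂ) ^ 2 + (p : ℂ) * τ + (q : ℂ) = 0 := by
    rw [huv]
    simp only [p, q]
    push_cast
    linear_combination (v : ℂ) ^ 2 * hes
  refine FA.SchneiderLang.isAlgebraic_jfun_of_quadratic τ
    (a := (p.den : ℤ) * q.den) (b := p.num * q.den) (c := q.num * p.den)
    (mul_ne_zero (Int.natCast_ne_zero.2 p.den_nz) (Int.natCast_ne_zero.2 q.den_nz)) ?_
  have hp : (p : ℂ) * (p.den : ℂ) = (p.num : ℂ) := by exact_mod_cast p.mul_den_eq_num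
  have hq : (q : ℂ) * (q.den : ℂ) = (q.num : ℂ) := by exact_mod_cast q.mul_den_eq_num
  push_cast
  linear_combination (p.den : ℂ) * q.den * hr - (τ : ℂ) * q.den * hp - (p.den : ℂ) * hq

theorem isAlgebraic_of_mem {z : ℂ} (hz : z ∈ e.range) : IsAlgebraic ℚ z := by
  obtain ⟨x, rfl⟩ := hz
  exact (Algebra.IsAlgebraic.isAlgebraic (R := ℚ) x).algHom e.toRatAlgHom

theorem negConj_mem (hK : finrank ℚ K = 2) (hd0 : d < 0) (hs : s ^ 2 = (d : K))
    (he : e s = Complex.I * (Real.sqrt (-(d : ℝ)) : ℂ)) {τ : ℍ} (hτ : (τ : ℂ) ∈ e.range) :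
    (negConj τ : ℂ) ∈ e.range := by
  obtain ⟨u, v, -, huv⟩ := exists_rat_coord hK hd0 hs hτ
  refine ⟨(-u : K) + (v : K) * s, ?_⟩
  rw [coe_negConj, huv]
  simp [he, Complex.conj_ofReal]
  ring

theorem isAlgebraic_ratio (hK : finrank ℚ K = 2) (hd0 : d < 0) (hs : s ^ 2 = (d : K)) {τ τ' : ℍ}
    (hτ : (τ : ℂ) ∈ e.range) (hτ' : (τ' : ℂ) ∈ e.range) : IsAlgebraic ℚ (Δ τ / Δ τ') := by
  obtain ⟨u, v, hv, huv⟩ := exists_rat_coord hK hd0 hs hτ
  obtain ⟨u', v', hv', huv'⟩ := exists_rat_coord hK hd0 hs hτ'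
  set r : ℚ := v / v'
  set t : ℚ := u - r * u'
  have hrel : (τ : ℂ) = (r : ℂ) * τ' + (t : ℂ) := by
    have hv'' : (v' : ℂ) ≠ 0 := Rat.cast_ne_zero.2 hv'
    rw [huv, huv']
    simp only [r, t]
    push_cast
    field_simp
    ring
  have hrpos : 0 < r := by
    have him := congrArg Complex.im hrel
    simp at him
    have : (0 : ℝ) < r := pos_of_mul_pos_left (him ▸ τ.im_pos) τ'.im_pos.le
    exact_mod_cast this
  obtain ⟨a, ha⟩ : ∃ a : ℕ, (a : ℤ) = r.num * t.den :=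
    ⟨(r.num * t.den).toNat,
      Int.toNat_of_nonneg (mul_nonneg (Rat.num_pos.2 hrpos).le (by positivity))⟩
  haveI : NeZero a := ⟨fun h => by
    rw [h, Nat.cast_zero, eq_comm, mul_eq_zero] at ha
    rcases ha with h1 | h1
    · exact (Rat.num_pos.2 hrpos).ne' h1
    · exact t.den_nz (by exact_mod_cast h1)⟩
  haveI : NeZero (r.den * t.den) := ⟨mul_ne_zero r.den_nz t.den_nz⟩
  refine isAlgebraic_discriminant_ratio (isAlgebraic_jfun_of_mem hK hd0 hs hτ)
    (isAlgebraic_jfun_of_mem hK hd0 hs hτ') (a := a) (n := r.den * t.den)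
    (b := t.num * r.den) ?_
  have hr : (r : ℂ) * (r.den : ℂ) = (r.num : ℂ) := by exact_mod_cast r.mul_den_eq_num
  have ht : (t : ℂ) * (t.den : ℂ) = (t.num : ℂ) := by exact_mod_cast t.mul_den_eq_num
  have ha' : (a : ℂ) = (r.num : ℂ) * (t.den : ℂ) := by exact_mod_cast ha
  rw [hrel, ha']
  push_cast
  linear_combination (τ' : ℂ) * (t.den : ℂ) * hr + (r.den : ℂ) * ht

theorem isAlgebraic_norm_div (hK : finrank ℚ K = 2) (hd0 : d < 0) (hs : s ^ 2 = (d : K))
    (he : e s = Complex.I * (Real.sqrt (-(d : ℝ)) : ℂ)) {τ : ℍ} (hτ : (τ : ℂ) ∈ e.range) :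
    IsAlgebraic ℚ (((‖Δ τ‖ : ℝ) : ℂ) / Δ τ) := by
  refine IsAlgebraic.of_pow (n := 2) two_pos ?_
  rw [div_pow, ← Complex.mul_conj', ← discriminant_negConj, pow_two,
    mul_div_mul_left _ _ (ModularForm.discriminant_ne_zero τ)]
  exact isAlgebraic_ratio hK hd0 hs (negConj_mem hK hd0 hs he hτ) hτ

theorem isAlgebraic_im (hK : finrank ℚ K = 2) (hd0 : d < 0) (hs : s ^ 2 = (d : K))
    (he : e s = Complex.I * (Real.sqrt (-(d : ℝ)) : ℂ)) {τ : ℍ} (hτ : (τ : ℂ) ∈ e.range) :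
    IsAlgebraic ℚ ((τ.im : ℝ) : ℂ) := by
  have h : ((τ.im : ℝ) : ℂ) = ((τ : ℂ) + (negConj τ : ℂ)) * (2 * Complex.I)⁻¹ := by
    rw [coe_negConj, ← sub_eq_add_neg, Complex.sub_conj, UpperHalfPlane.coe_im]
    field_simp
    push_cast
    ring
  rw [h]
  exact ((isAlgebraic_of_mem hτ).add (isAlgebraic_of_mem (negConj_mem hK hd0 hs he hτ))).mul
    (((isAlgebraic_natCast 2).mul (IsAlgebraic.of_pow two_pos
      (by rw [Complex.I_sq]; exact isAlgebraic_one.neg))).inv)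

/-- **The value of `Δ` at the points of `K`.** -/
theorem isAlgebraic_omega_div (hK : finrank ℚ K = 2) (hd : Squarefree d) (hd0 : d < 0)
    (hs : s ^ 2 = (d : K)) (he : e s = Complex.I * (Real.sqrt (-(d : ℝ)) : ℂ))
    {N : ℕ} [NeZero N] (hN : N = (discr K).natAbs) {χ : DirichletCharacter ℂ N}
    (hprim : χ.IsPrimitive) (hq : χ ^ 2 = 1) (hodd : χ.Odd)
    (hζ : ∀ z : ℂ, 1 < z.re → dedekindZeta K z = riemannZeta z * LFunction χ z)
    {τ : ℍ} (hτ : (τ : ℂ) ∈ e.range) :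
    IsAlgebraic ℚ ((csOmega K χ : ℂ) ^ 12 / Δ τ) := by
  classical
  haveI : Fintype (FA.Singular.Red (discK d)) := (FA.Singular.red_finite _).fintype
  choose T A hg using fun f : FA.Singular.Red (discK d) =>
    FA.FieldClassBound.exists_gen e hd0 hs he (f := (f : ℤ × ℤ × ℤ)) f.2.2.2.1 f.2.1
  have hTmem : ∀ f, (T f : ℂ) ∈ e.range := fun f => ⟨(A f : K) / ((f : ℤ × ℤ × ℤ).1 : K), by
    rw [map_div₀, map_intCast, (hg f).2,
      mul_div_cancel_left₀ _ (Int.cast_ne_zero.2 f.2.2.2.1.ne')]⟩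
  have hprod := prod_height hK hd hd0 hs hN hprim hq hodd hζ T fun f => (hg f).1
  set h := classNumber K
  have hh : Fintype.card (FA.Singular.Red (discK d)) = h := by
    show _ = classNumber K
    rw [classNumber_eq_ncard_red hK hd hd0 hs, ← Nat.card_coe_set_eq, Nat.card_eq_fintype_card]
  have hh0 : 0 < h := Fintype.card_pos
  have hhR : (h : ℝ) ≠ 0 := Nat.cast_ne_zero.2 hh0.ne'
  have hnn : ∀ a : ZMod N, 0 ≤ Real.Gamma ((a.val : ℝ) / N) := fun a => by
    rcases eq_or_ne a.val 0 with ha | ha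
    · simp [ha]
    · have : 0 < a.val := Nat.pos_of_ne_zero ha
      have : 0 < N := Nat.pos_of_ne_zero (NeZero.ne N)
      exact (Real.Gamma_pos_of_pos (by positivity)).le
  have hNpos : (0 : ℝ) < √N := Real.sqrt_pos.2 (Nat.cast_pos.2 (Nat.pos_of_ne_zero (NeZero.ne N)))
  set P := ∏ f, height (T f)
  have hP : csOmega K χ ^ (12 * h) = P ^ 12 * (4 * √N) ^ (6 * h) := by
    have hG : ∀ a : ZMod N, (Real.Gamma ((a.val : ℝ) / N) ^
        ((Units.torsionOrder K : ℝ) * (χ a).re / (4 * h))) ^ h =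
          Real.Gamma ((a.val : ℝ) / N) ^ ((Units.torsionOrder K : ℝ) / 4 * (χ a).re) := fun a => by
      rw [← Real.rpow_mul_natCast (hnn a)]
      congr 1
      field_simp
    have hpow : (4 * π * √N) ^ (-((h : ℝ) / 2)) = ((√(4 * π * √N))⁻¹) ^ h := by
      rw [Real.sqrt_eq_rpow (4 * π * √N), inv_pow, ← Real.rpow_mul_natCast (by positivity),
        ← Real.rpow_neg (by positivity)]
      congr 1
      ring
    have hP' : P = ((√(4 * π * √N))⁻¹ *
        ∏ a : ZMod N, Real.Gamma ((a.val : ℝ) / N) ^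
          ((Units.torsionOrder K : ℝ) * (χ a).re / (4 * h))) ^ h := by
      rw [hprod, mul_pow, ← Finset.prod_pow, hpow, Finset.prod_congr rfl fun a _ => hG a]
    have hc : (√(4 * π * √N))⁻¹ ^ 12 * (4 * √N) ^ 6 = (√π)⁻¹ ^ 12 := by
      have h12 : ∀ X : ℝ, 0 ≤ X → (√X)⁻¹ ^ 12 = X⁻¹ ^ 6 := fun X hX => by
        rw [show (12 : ℕ) = 2 * 6 from rfl, pow_mul, inv_pow (√X), Real.sq_sqrt hX]
      rw [h12 _ (by positivity), h12 _ Real.pi_pos.le, ← mul_pow]
      congr 1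
      field_simp
    rw [csOmega, hP', pow_mul, pow_mul (4 * √(N : ℝ)), ← pow_mul _ h 12, mul_comm h 12, pow_mul,
      ← mul_pow, mul_pow _ _ 12, mul_pow _ _ 12, ← hc]
    ring
  have hheight : ∀ f, height (T f) ^ 12 = (T f).im ^ 6 * ‖Δ (T f)‖ := fun f => by
    rw [height, mul_pow, show ∀ x : ℝ, x ^ 12 = (x ^ 2) ^ 6 from fun x => by ring,
      Real.sq_sqrt (T f).im_pos.le, ModularForm.discriminant, norm_pow]
    ring
  have hΔ := ModularForm.discriminant_ne_zero τ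
  have key : ((csOmega K χ : ℂ) ^ 12 / Δ τ) ^ h = ((4 * √N : ℝ) : ℂ) ^ (6 * h) *
      ∏ f, ((((T f).im : ℝ) : ℂ) ^ 6 * (((‖Δ (T f)‖ : ℝ) : ℂ) / Δ (T f)) *
        (Δ (T f) / Δ τ)) := by
    have h1 : ∀ f, (((T f).im : ℝ) : ℂ) ^ 6 * (((‖Δ (T f)‖ : ℝ) : ℂ) / Δ (T f)) *
        (Δ (T f) / Δ τ) = ((height (T f) ^ 12 : ℝ) : ℂ) / Δ τ := fun f => by
      have := ModularForm.discriminant_ne_zero (T f)
      rw [hheight]
      push_cast
      field_simp
    simp only [h1]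
    rw [Finset.prod_div_distrib, Finset.prod_const, Finset.card_univ, hh, div_pow, ← pow_mul,
      ← Complex.ofReal_pow, hP, ← Complex.ofReal_prod, Finset.prod_pow]
    simp only [P]
    push_cast
    ring
  refine IsAlgebraic.of_pow hh0 ?_
  rw [key]
  refine (IsAlgebraic.pow ?_ _).mul ?_
  · push_cast
    refine (isAlgebraic_natCast 4).mul (IsAlgebraic.of_pow two_pos ?_)
    rw [← Complex.ofReal_pow, Real.sq_sqrt (Nat.cast_nonneg N), Complex.ofReal_natCast]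
    exact isAlgebraic_natCast N
  · refine Finset.prod_induction _ (IsAlgebraic ℚ) (fun _ _ => IsAlgebraic.mul) isAlgebraic_one
      fun f _ => (((isAlgebraic_im hK hd0 hs he (hTmem f)).pow 6).mul
        (isAlgebraic_norm_div hK hd0 hs he (hTmem f))).mul
          (isAlgebraic_ratio hK hd0 hs (hTmem f) hτ)

theorem csOmega_ne_zero {N : ℕ} [NeZero N] {χ : DirichletCharacter ℂ N} (hodd : χ.Odd) :
    csOmega K χ ≠ 0 := by
  have hN1 : 1 < N := FA.AbelianFE.one_lt_of_odd hodd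
  refine mul_ne_zero (inv_ne_zero (Real.sqrt_ne_zero'.2 Real.pi_pos))
    (Finset.prod_ne_zero_iff.2 fun a _ => ?_)
  rcases eq_or_ne a 0 with rfl | ha
  · haveI : Fact (1 < N) := ⟨hN1⟩
    simp [MulChar.map_nonunit χ not_isUnit_zero]
  · exact (Real.rpow_pos_of_pos (Real.Gamma_pos_of_pos (div_pos (Nat.cast_pos.2
      (Nat.pos_of_ne_zero fun h => ha ((ZMod.val_eq_zero a).1 h)))
      (Nat.cast_pos.2 (by omega)))) _).ne'

/-- The lattice form: if `g₂, g₃` are algebraic and the period ratio lies in `e K`, each period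
is an algebraic multiple of `π Ω`. -/
theorem isAlgebraic_period_div {L : PeriodPair} (h2 : IsAlgebraic ℚ L.g₂)
    (h3 : IsAlgebraic ℚ L.g₃) (hratio : L.ω₁ / L.ω₂ ∈ e.range) {Ω : ℂ}
    (hΩ : ∀ τ : ℍ, (τ : ℂ) ∈ e.range → IsAlgebraic ℚ (Ω ^ 12 / Δ τ)) {l : ℂ}
    (hl : l ∈ L.lattice) : IsAlgebraic ℚ (l / (π * Ω)) := by
  have hω : L.ω₂ ≠ 0 := by
    intro h
    have := LinearIndependent.pair_iff.mp L.indep 0 1 (by simp [h])
    simp at this
  set ρ := L.ω₁ / L.ω₂ with hρ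
  have hρim : ρ.im ≠ 0 := fun h0 => by
    have hrel : L.ω₁ = ((ρ.re : ℝ) : ℂ) * L.ω₂ := by
      rw [show ((ρ.re : ℝ) : ℂ) = ρ from Complex.ext rfl (by simpa using h0.symm), hρ,
        div_mul_cancel₀ _ hω]
    have := LinearIndependent.pair_iff.mp L.indep 1 (-ρ.re) (by
      simp only [Complex.real_smul]; push_cast; linear_combination hrel)
    simp at this
  obtain ⟨ε, hε, him⟩ : ∃ ε : ℤ, (ε = 1 ∨ ε = -1) ∧ 0 < ((ε : ℂ) * ρ).im := by
    rcases lt_or_gt_of_ne hρim with h | h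
    · exact ⟨-1, Or.inr rfl, by simpa using h⟩
    · exact ⟨1, Or.inl rfl, by simpa using h⟩
  have hεε : (ε : ℂ) * ε = 1 := by rcases hε with rfl | rfl <;> norm_num
  set τ : ℍ := ⟨(ε : ℂ) * ρ, him⟩ with hτdef
  have hτc : (τ : ℂ) = (ε : ℂ) * ρ := rfl
  have hτ : (τ : ℂ) ∈ e.range := by
    rw [hτc]; exact mul_mem (intCast_mem _ ε) hratio
  have hlat : L.lattice = (FA.JInj.scalePair (FA.Mazur.Wp.latPair τ) L.ω₂ hω).lattice := by
    ext x
    rw [FA.JInj.mem_scalePair, PeriodPair.mem_lattice]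
    constructor
    · rintro ⟨m, n, rfl⟩
      refine ⟨((m * ε : ℤ) : ℂ) * τ + n, FA.Mazur.Wp.mem_latPair.2 ⟨_, n, rfl⟩, ?_⟩
      have : L.ω₁ = ρ * L.ω₂ := (div_mul_cancel₀ _ hω).symm
      rw [this, hτc]
      push_cast
      linear_combination (m : ℂ) * ρ * L.ω₂ * hεε
    · rintro ⟨y, hy, rfl⟩
      obtain ⟨m, n, rfl⟩ := FA.Mazur.Wp.mem_latPair.1 hy
      refine ⟨m * ε, n, ?_⟩
      have : L.ω₁ = ρ * L.ω₂ := (div_mul_cancel₀ _ hω).symm
      rw [this, hτc]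
      push_cast
      ring
  have e1 : L.g₂ ^ 3 - 27 * L.g₃ ^ 2 =
      (2 * Complex.I) ^ 12 * ((π : ℂ) / L.ω₂) ^ 12 * Δ τ := by
    have h := FA.Mazur.Wp.discr_latPair τ
    rw [FA.Mazur.Wp.tpi] at h
    rw [PeriodPair.g₂, PeriodPair.g₃, FA.JInj.G_congr hlat, FA.JInj.G_congr hlat,
      ← PeriodPair.g₂, ← PeriodPair.g₃, FA.JInj.g₂_scalePair, FA.JInj.g₃_scalePair]
    field_simp
    linear_combination h
  have hI : IsAlgebraic ℚ Complex.I :=
    IsAlgebraic.of_pow two_pos (by rw [Complex.I_sq]; exact isAlgebraic_one.neg)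
  have hπω : IsAlgebraic ℚ ((π : ℂ) * Ω / L.ω₂) := by
    refine IsAlgebraic.of_pow (n := 12) (by norm_num) ?_
    have hval : ((π : ℂ) * Ω / L.ω₂) ^ 12 = (L.g₂ ^ 3 - 27 * L.g₃ ^ 2) *
        (Ω ^ 12 / Δ τ) * ((2 * Complex.I) ^ 12)⁻¹ := by
      rw [e1]
      field_simp [ModularForm.discriminant_ne_zero τ, Complex.I_ne_zero]
    rw [hval]
    exact (((h2.pow 3).sub ((isAlgebraic_natCast 27).mul (h3.pow 2))).mul (hΩ τ hτ)).mul
      (((isAlgebraic_natCast 2).mul hI).pow 12).inv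
  obtain ⟨m, n, rfl⟩ := PeriodPair.mem_lattice.1 hl
  have hal : IsAlgebraic ℚ ((m : ℂ) * ρ + n) :=
    ((isAlgebraic_intCast m).mul (isAlgebraic_of_mem hratio)).add (isAlgebraic_intCast n)
  have hfin : ((m : ℂ) * L.ω₁ + n * L.ω₂) / (π * Ω) =
      ((m : ℂ) * ρ + n) * ((π : ℂ) * Ω / L.ω₂)⁻¹ := by
    rw [hρ]
    field_simp
  rw [hfin]
  exact hal.mul hπω.inv

end FA.ChowlaSelberg

end
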