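import Fermat.Agent.ModularParametrization.ModularValues
import Fermat.Agent.ModField.Igusa.LevelP
import Mathlib.NumberTheory.ModularForms.Bounds

/-!
# `Δ (N τ) / Δ τ` and `Δ (-conj τ)`

`Δ (N τ)` is a cusp form of weight twelve on `Γ₀(N)` with rational expansion, so its quotient by
`Δ τ` is algebraic where `j` is; `Δ (-conj τ)` is the conjugate of `Δ τ`.
-/

set_option autoImplicit false

noncomputable section

open UpperHalfPlane hiding I
open CongruenceSubgroup Filter FA.Period FA.ModField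
open scoped Manifold Topology MatrixGroups ModularForm

namespace FA.ChowlaSelberg

local notation "Δ" => ModularForm.discriminant
local notation "𝕢" => Function.Periodic.qParam

/-- `Δ (N z)`. -/
def deltaScale (N : ℕ) [NeZero N] (z : ℍ) : ℂ := Δ (scaleH N z)

variable {N : ℕ} [NeZero N]

theorem deltaScale_smul {γ : SL(2, ℤ)} (hγ : γ ∈ Gamma0 N) (z : ℍ) :
    deltaScale N (γ • z) = denom γ z ^ (12 : ℤ) * deltaScale N z := by
  have h := unitFun_smul N hγ z
  rw [unitFun, unitFun, discriminant_smul] at h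
  have hN : (N : ℂ) ≠ 0 := Nat.cast_ne_zero.2 (NeZero.ne N)
  have hd : denom γ z ^ (12 : ℤ) ≠ 0 := zpow_ne_zero _ (denom_ne_zero _ _)
  have h0 := ModularForm.discriminant_ne_zero z
  rw [deltaScale, deltaScale]
  field_simp at h
  exact h

theorem im_scaleH (z : ℍ) : (scaleH N z).im = N * z.im := by
  show (scaleH N z : ℂ).im = _
  rw [coe_scaleH]
  simp

theorem isZeroAtImInfty_deltaScale_slash (γ : SL(2, ℤ)) :
    IsZeroAtImInfty (deltaScale N ∣[(12 : ℤ)] γ) := by
  obtain ⟨C, hC⟩ := CuspFormClass.exists_bound CuspForm.discriminant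
  rw [IsZeroAtImInfty, ZeroAtFilter]
  have hN : (0 : ℝ) < N := Nat.cast_pos.2 (Nat.pos_of_ne_zero (NeZero.ne N))
  have hlim : Tendsto (fun z : ℍ => (C / (N : ℝ) ^ 6) * (z.im ^ 6)⁻¹) atImInfty (𝓝 0) := by
    have := ((tendsto_inv_atTop_zero.comp (tendsto_pow_atTop (by norm_num : (6 : ℕ) ≠ 0))).comp
      (tendsto_comap : Tendsto UpperHalfPlane.im atImInfty atTop)).const_mul (C / (N : ℝ) ^ 6)
    simpa [atImInfty] using this
  refine squeeze_zero_norm (fun z => ?_) hlim
  have h := hC (scaleH N (γ • z))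
  rw [im_scaleH, ModularGroup.im_smul_eq_div_normSq, Complex.normSq_eq_norm_sq,
    show ((12 : ℤ) : ℝ) / 2 = ((6 : ℕ) : ℝ) by norm_num, Real.rpow_natCast] at h
  rw [ModularForm.SL_slash_apply, norm_mul, norm_zpow, deltaScale]
  have hd : 0 < ‖denom γ z‖ := norm_pos_iff.2 (denom_ne_zero _ _)
  calc ‖Δ (scaleH N (γ • z))‖ * ‖denom γ z‖ ^ (-(12 : ℤ))
      ≤ C / ((N : ℝ) * (z.im / ‖denom γ z‖ ^ 2)) ^ 6 * ‖denom γ z‖ ^ (-(12 : ℤ)) :=
        mul_le_mul_of_nonneg_right (by simpa using h) (zpow_nonneg hd.le _)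
    _ = C / (N : ℝ) ^ 6 * (z.im ^ 6)⁻¹ := by
        have := z.im_pos.ne'
        rw [zpow_neg, show (12 : ℤ) = ((12 : ℕ) : ℤ) by norm_num, zpow_natCast]
        field_simp

theorem deltaScale_mem : deltaScale N ∈ cuspForms N 12 := by
  refine ⟨⟨fun γ hγ => funext fun z => ?_, mdiff_comp_scale CuspForm.discriminant.holo' N,
    fun γ => (isZeroAtImInfty_deltaScale_slash γ).isBoundedAtImInfty⟩,
    isZeroAtImInfty_deltaScale_slash⟩
  rw [ModularForm.SL_slash_apply, deltaScale_smul hγ, zpow_neg, mul_comm, ← mul_assoc,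
    inv_mul_cancel₀ (zpow_ne_zero _ (denom_ne_zero _ _)), one_mul]

theorem hasSum_discriminant (z : ℍ) :
    HasSum (fun m : ℕ => (qExp Δ).coeff m • 𝕢 1 (z : ℂ) ^ m) (Δ z) := by
  have h := isQFun_of_mem coe_discriminant_mem_forms
  exact hasSum_qExpansion one_pos h.periodic h.mdiff h.bdd z

theorem exists_rat_coeff_discriminant (m : ℕ) : ∃ r : ℚ, (qExp Δ).coeff m = r :=
  FA.ModularParametrization.exists_rat_coeff bddDenom_discriminant m

theorem exists_rat_coeff_deltaScale (m : ℕ) : ∃ r : ℚ, (qExp (deltaScale N)).coeff m = r := by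
  classical
  set c : ℕ → ℂ := fun k => if N ∣ k then (qExp Δ).coeff (k / N) else 0 with hc
  have hN := NeZero.ne N
  have hsum : ∀ z : ℍ, HasSum (fun k : ℕ => c k • 𝕢 1 (z : ℂ) ^ k) (deltaScale N z) := fun z => by
    have hinj : Function.Injective fun k : ℕ => N * k := fun a b h =>
      Nat.eq_of_mul_eq_mul_left (Nat.pos_of_ne_zero hN) h
    refine (hinj.hasSum_iff fun k hk => ?_).1 ((hasSum_discriminant (scaleH N z)).congr_fun
      fun k => ?_)
    · simp only [hc, smul_eq_mul]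
      rw [if_neg fun ⟨j, hj⟩ => hk ⟨j, hj.symm⟩, zero_mul]
    · simp only [Function.comp_apply, hc, dvd_mul_right, if_true,
        Nat.mul_div_cancel_left _ (Nat.pos_of_ne_zero hN), smul_eq_mul, coe_scaleH]
      rw [pow_mul, Function.Periodic.qParam, Function.Periodic.qParam, ← Complex.exp_nat_mul,
        ← Complex.exp_nat_mul, ← Complex.exp_nat_mul]
      congr 2
      ring
  rw [← (isQFun_of_mem deltaScale_mem.1).coeff_unique hsum m, hc]
  by_cases h : N ∣ m
  · simpa [h] using exists_rat_coeff_discriminant (m / N)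
  · exact ⟨0, by simp [h]⟩

/-- **`Δ (N τ) / Δ τ` is algebraic where `j` is.** -/
theorem isAlgebraic_deltaScale_div {τ : ℍ} (hj : IsAlgebraic ℚ (jfun τ)) :
    IsAlgebraic ℚ (Δ (scaleH N τ) / Δ τ) :=
  FA.ModularParametrization.isAlgebraic_div_of_forms (N := N) (w := 12)
    ⟨forms_one_le N 12 coe_discriminant_mem_forms, fun γ => by
      rw [slash_eq_of_mem_forms_one coe_discriminant_mem_forms]
      exact ModularForm.discriminant_isZeroAtImInfty⟩
    deltaScale_mem bddDenom_discriminant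
    (bddDenom_of_rational deltaScale_mem exists_rat_coeff_deltaScale)
    (ModularForm.discriminant_ne_zero τ) hj

/-- The point `-conj τ`. -/
def negConj (τ : ℍ) : ℍ :=
  ⟨-(starRingEnd ℂ) (τ : ℂ), by simpa using τ.im_pos⟩

theorem coe_negConj (τ : ℍ) : (negConj τ : ℂ) = -(starRingEnd ℂ) (τ : ℂ) := rfl

/-- **`Δ (-conj τ) = conj (Δ τ)`.** -/
theorem discriminant_negConj (τ : ℍ) : Δ (negConj τ) = (starRingEnd ℂ) (Δ τ) := by
  refine (hasSum_discriminant (negConj τ)).unique
    (((hasSum_discriminant τ).map (starRingEnd ℂ) Complex.continuous_conj).congr_fun fun m => ?_)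
  obtain ⟨r, hr⟩ := exists_rat_coeff_discriminant m
  simp only [Function.comp_apply, hr, smul_eq_mul, map_mul, map_pow, map_ratCast,
    Function.Periodic.qParam, ← Complex.exp_conj, map_div₀, map_mul, map_ofNat, Complex.conj_I,
    Complex.conj_ofReal, coe_negConj]
  congr 2
  congr 1
  ring

end FA.ChowlaSelberg

end
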