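import Fermat.Agent.ChowlaSelberg.Periods
import Fermat.Agent.Root.SummaryClassLValues
import Fermat.Agent.Root.SummaryBaker
import Fermat.Agent.Root.SummaryCMPeriods

/-!
# Transcendence in the limit formula

The quotients of `√y |η τ|²` at the points of an imaginary quadratic field are algebraic, so by
Baker's theorem combinations of their logarithms vanish or are transcendental; the logarithmic
derivative of `L (s, χ)` at one has the exponential `2 e ^ γ / Ω²`.
-/

set_option autoImplicit false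
set_option linter.style.haveILetI false

noncomputable section

open NumberField Module DirichletCharacter Filter Topology UpperHalfPlane
open scoped Real

namespace FA.ChowlaSelberg

local notation "Δ" => ModularForm.discriminant

theorem height_pow_twelve (τ : ℍ) : height τ ^ 12 = τ.im ^ 6 * ‖Δ τ‖ := by
  rw [height, mul_pow, show ∀ x : ℝ, x ^ 12 = (x ^ 2) ^ 6 from fun x => by ring,
    Real.sq_sqrt τ.im_pos.le, ModularForm.discriminant, norm_pow]
  ring

variable {K : Type*} [Field K] [NumberField K]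

/-- An embedding sends `s` to `± √d`. -/
theorem exists_sign {d : ℤ} {s : K} (hd0 : d < 0) (hs : s ^ 2 = (d : K)) (e : K →+* ℂ) :
    ∃ s' : K, s' ^ 2 = (d : K) ∧ e s' = Complex.I * (Real.sqrt (-(d : ℝ)) : ℂ) := by
  have hsq : (e s) ^ 2 = (Complex.I * (Real.sqrt (-(d : ℝ)) : ℂ)) ^ 2 := by
    rw [← map_pow, hs, map_intCast, mul_pow, Complex.I_sq, ← Complex.ofReal_pow,
      Real.sq_sqrt (neg_nonneg.2 (Int.cast_nonpos.2 hd0.le))]
    push_cast
    ring
  rcases sq_eq_sq_iff_eq_or_eq_neg.1 hsq with he | he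
  · exact ⟨s, hs, he⟩
  · exact ⟨-s, by rw [neg_sq]; exact hs, by rw [map_neg, he, neg_neg]⟩

theorem isAlgebraic_height_ratio [IsTotallyComplex K] (hK : finrank ℚ K = 2) (e : K →+* ℂ)
    {τ τ' : ℍ} (hτ : (τ : ℂ) ∈ e.range) (hτ' : (τ' : ℂ) ∈ e.range) :
    IsAlgebraic ℚ ((height τ / height τ' : ℝ) : ℂ) := by
  obtain ⟨d, -, hd0, s₀, hs₀⟩ := exists_sq_eq_intCast_neg K hK
  obtain ⟨s, hs, he⟩ := exists_sign hd0 hs₀ e
  refine IsAlgebraic.of_pow (n := 12) (by norm_num) ?_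
  have h1 := ModularForm.discriminant_ne_zero τ
  have h2 := ModularForm.discriminant_ne_zero τ'
  have h3 : ((τ'.im : ℝ) : ℂ) ≠ 0 := Complex.ofReal_ne_zero.2 τ'.im_pos.ne'
  have h4 : ((‖Δ τ'‖ : ℝ) : ℂ) ≠ 0 := Complex.ofReal_ne_zero.2 (norm_ne_zero_iff.2 h2)
  rw [show ((height τ / height τ' : ℝ) : ℂ) ^ 12 =
      ((τ.im : ℝ) : ℂ) ^ 6 * (((τ'.im : ℝ) : ℂ) ^ 6)⁻¹ * (((‖Δ τ‖ : ℝ) : ℂ) / Δ τ) *
        (((‖Δ τ'‖ : ℝ) : ℂ) / Δ τ')⁻¹ * (Δ τ / Δ τ') by
    rw [← Complex.ofReal_pow, div_pow, height_pow_twelve, height_pow_twelve]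
    push_cast
    field_simp]
  exact ((((isAlgebraic_im hK hd0 hs he hτ).pow 6).mul
    ((isAlgebraic_im hK hd0 hs he hτ').pow 6).inv).mul (isAlgebraic_norm_div hK hd0 hs he hτ)
    |>.mul (isAlgebraic_norm_div hK hd0 hs he hτ').inv).mul (isAlgebraic_ratio hK hd0 hs hτ hτ')

/-- **Baker's theorem for heights.** -/
theorem transcendental_height_sum [IsTotallyComplex K] (hK : finrank ℚ K = 2) (e : K →+* ℂ)
    {ι : Type*} [Fintype ι] (T : ι → ℍ) (T₀ : ℍ) (hT : ∀ i, (T i : ℂ) ∈ e.range)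
    (hT₀ : (T₀ : ℂ) ∈ e.range) (β : ι → ℂ) (hβ : ∀ i, IsAlgebraic ℚ (β i))
    (h0 : ∑ i, β i * (Real.log (height (T i) / height T₀) : ℂ) ≠ 0) :
    Transcendental ℚ (∑ i, β i * (Real.log (height (T i) / height T₀) : ℂ)) := fun halg => by
  refine h0 ?_
  rw [← Equiv.sum_comp (Fintype.equivFin ι).symm] at halg ⊢
  refine FA.BakerTheorem.Summary.eq_zero_of_algebraic _ (fun i => ?_) _ (fun i => hβ _) halg
  rw [← Complex.ofReal_exp, Real.exp_log (div_pos (height_pos _) (height_pos _))]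
  exact isAlgebraic_height_ratio hK e (hT _) hT₀

theorem isAlgebraic_char {G : Type*} [CommGroup G] [Fintype G] (φ : G →* ℂˣ) (g : G) :
    IsAlgebraic ℚ (φ g : ℂ) := by
  refine IsAlgebraic.of_pow (n := Fintype.card G) Fintype.card_pos ?_
  rw [← Units.val_pow_eq_pow_val, ← map_pow, pow_card_eq_one, map_one, Units.val_one]
  exact isAlgebraic_one

theorem log_csOmega {N : ℕ} [NeZero N] {χ : DirichletCharacter ℂ N} (hodd : χ.Odd) :
    Real.log (csOmega K χ) = -(Real.log π / 2) +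
      (Units.torsionOrder K : ℝ) / (4 * classNumber K) *
        ∑ a : ZMod N, (χ a).re * Real.log (Real.Gamma ((a.val : ℝ) / N)) := by
  have hN1 : 1 < N := FA.AbelianFE.one_lt_of_odd hodd
  haveI : Fact (1 < N) := ⟨hN1⟩
  have hne : ∀ a : ZMod N, Real.Gamma ((a.val : ℝ) / N) ^
      ((Units.torsionOrder K : ℝ) * (χ a).re / (4 * classNumber K)) ≠ 0 := fun a => by
    rcases eq_or_ne a 0 with rfl | ha
    · simp [MulChar.map_nonunit χ not_isUnit_zero]
    · exact (Real.rpow_pos_of_pos (Real.Gamma_pos_of_pos (div_pos (Nat.cast_pos.2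
        (Nat.pos_of_ne_zero fun h => ha ((ZMod.val_eq_zero a).1 h)))
        (Nat.cast_pos.2 (by omega)))) _).ne'
  rw [csOmega, Real.log_mul (inv_ne_zero (Real.sqrt_ne_zero'.2 Real.pi_pos))
    (Finset.prod_ne_zero_iff.2 fun a _ => hne a), Real.log_inv, Real.log_sqrt Real.pi_pos.le,
    Real.log_prod fun a _ => hne a, Finset.mul_sum]
  congr 1
  refine Finset.sum_congr rfl fun a _ => ?_
  rcases eq_or_ne a 0 with rfl | ha
  · simp [MulChar.map_nonunit χ not_isUnit_zero]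
  · rw [Real.log_rpow (Real.Gamma_pos_of_pos (div_pos (Nat.cast_pos.2
      (Nat.pos_of_ne_zero fun h => ha ((ZMod.val_eq_zero a).1 h)))
      (Nat.cast_pos.2 (by omega))))]
    ring

theorem csOmega_pos {N : ℕ} [NeZero N] {χ : DirichletCharacter ℂ N} (hodd : χ.Odd) :
    0 < csOmega K χ := by
  refine lt_of_le_of_ne (mul_nonneg (by positivity) (Finset.prod_nonneg fun a _ => ?_))
    (csOmega_ne_zero hodd).symm
  refine Real.rpow_nonneg ?_ _
  rcases eq_or_ne a.val 0 with ha | ha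
  · simp [ha]
  · have : 0 < a.val := Nat.pos_of_ne_zero ha
    have : 0 < N := Nat.pos_of_ne_zero (NeZero.ne N)
    exact (Real.Gamma_pos_of_pos (by positivity)).le

/-- **The logarithmic derivative at one.** -/
theorem exp_logDeriv {N : ℕ} [NeZero N] {χ : DirichletCharacter ℂ N} (hprim : χ.IsPrimitive)
    (hq : χ ^ 2 = 1) (hodd : χ.Odd)
    (hL : LFunction χ 1 = ((2 * π * classNumber K / (Units.torsionOrder K * √N) : ℝ) : ℂ)) :
    Complex.exp (deriv (LFunction χ) 1 / LFunction χ 1 - (Real.eulerMascheroniConstant : ℂ)) =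
      ((2 / csOmega K χ ^ 2 : ℝ) : ℂ) := by
  set G : ℝ := ∑ a : ZMod N, (χ a).re * Real.log (Real.Gamma ((a.val : ℝ) / N)) with hGdef
  have hG : gammaSum χ = (G : ℂ) := by
    rw [gammaSum, hGdef, Complex.ofReal_sum]
    exact Finset.sum_congr rfl fun a _ => by rw [Complex.ofReal_mul, ← apply_eq_re hq]
  have hh : (classNumber K : ℝ) ≠ 0 := Nat.cast_ne_zero.2 (classNumber_pos K).ne'
  have hw : (Units.torsionOrder K : ℝ) ≠ 0 := Nat.cast_ne_zero.2 (Units.torsionOrder_ne_zero K)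
  have hs : √(N : ℝ) ≠ 0 :=
    Real.sqrt_ne_zero'.2 (Nat.cast_pos.2 (Nat.pos_of_ne_zero (NeZero.ne N)))
  have hval : deriv (LFunction χ) 1 / LFunction χ 1 - (Real.eulerMascheroniConstant : ℂ) =
      ((Real.log (2 * π) - (Units.torsionOrder K : ℝ) / (2 * classNumber K) * G : ℝ) : ℂ) := by
    rw [deriv_LFunction_one hprim hq hodd, hL, hG]
    have hhC : ((classNumber K : ℕ) : ℂ) ≠ 0 := Nat.cast_ne_zero.2 (classNumber_pos K).ne'
    have hwC : ((Units.torsionOrder K : ℕ) : ℂ) ≠ 0 :=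
      Nat.cast_ne_zero.2 (Units.torsionOrder_ne_zero K)
    have hsC : ((√N : ℝ) : ℂ) ≠ 0 := Complex.ofReal_ne_zero.2 hs
    have hπ : (π : ℂ) ≠ 0 := Complex.ofReal_ne_zero.2 Real.pi_ne_zero
    push_cast
    field_simp
    ring
  have hpos := csOmega_pos (K := K) hodd
  rw [hval, ← Complex.ofReal_exp, Complex.ofReal_inj,
    ← Real.exp_log (div_pos two_pos (pow_pos hpos 2)), Real.log_div two_ne_zero (by positivity),
    Real.log_pow, log_csOmega hodd, Real.log_mul two_ne_zero Real.pi_ne_zero]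
  congr 1
  push_cast
  ring

/-- Two expansions at the pole agree. -/
theorem pole_unique {A B : ℂ} {F G : ℂ → ℂ} (hF : Continuous F) (hG : Continuous G)
    (h : ∀ z : ℝ, 1 < z → z ≤ 2 → A / ((z : ℂ) - 1) + F z = B / ((z : ℂ) - 1) + G z) :
    A = B ∧ F 1 = G 1 := by
  have hid : Tendsto (fun z : ℝ => (z : ℂ) - 1) (𝓝[>] 1) (𝓝 0) :=
    (Complex.continuous_ofReal.sub continuous_const).tendsto' 1 _ (by simp)
      |>.mono_left nhdsWithin_le_nhds
  have hne : ∀ᶠ z : ℝ in 𝓝[>] 1, (z : ℂ) - 1 ≠ 0 := by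
    filter_upwards [self_mem_nhdsWithin] with z hz
    simpa [sub_eq_zero] using (ne_of_gt (show (1 : ℝ) < z from hz))
  have hFG : Tendsto (fun z : ℝ => G z - F z) (𝓝[>] 1) (𝓝 (G 1 - F 1)) := by
    simpa [Function.comp_def] using (((hG.sub hF).comp Complex.continuous_ofReal).tendsto 1
      ).mono_left nhdsWithin_le_nhds
  have hd : Tendsto (fun z : ℝ => (A - B) / ((z : ℂ) - 1)) (𝓝[>] 1) (𝓝 (G 1 - F 1)) := by
    refine hFG.congr' ?_
    filter_upwards [Ioo_mem_nhdsGT (show (1 : ℝ) < 2 by norm_num)] with z hz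
    have := h z hz.1 hz.2.le
    rw [sub_div]
    linear_combination -this
  have h1 : A - B = 0 := by
    refine tendsto_nhds_unique (l := 𝓝[>] (1 : ℝ)) tendsto_const_nhds ?_
    have := hd.mul hid
    rw [mul_zero] at this
    exact this.congr' (hne.mono fun z hz => by rw [div_mul_cancel₀ _ hz])
  simp only [h1, zero_div] at hd
  exact ⟨sub_eq_zero.1 h1, (sub_eq_zero.1 (tendsto_nhds_unique tendsto_const_nhds hd).symm).symm⟩

theorem isAlgebraic_sqrt_natCast (n : ℕ) : IsAlgebraic ℚ ((√(n : ℝ) : ℝ) : ℂ) := by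
  refine IsAlgebraic.of_pow two_pos ?_
  rw [← Complex.ofReal_pow, Real.sq_sqrt (Nat.cast_nonneg n), Complex.ofReal_natCast]
  exact isAlgebraic_natCast n

end FA.ChowlaSelberg

end
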